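import Mathlib
import Fermat.Agent.FF3.Amice.Mul
import Fermat.Agent.FF3.Amice.Complete

/-!
# FF3 / NodeRing : the formal node algebra `NodeB π = W[[X,Y]]/(XY - π)[1/ϖ]` (§2c, part 1)

`K` a complete ultrametric normed field, `π : K` (the thickness; `π ≠ 0`, and `‖π‖ < 1` where
needed).  An element of the node algebra is a pair `(c, c')` of bounded two-sided series (elements
of `BAmice K`, helper10's Amice ring) which are the two expansions of one function on the annulus: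
`c = ∑ cₙ Xⁿ` (expansion in `X`, i.e. on the `X`-boundary) and `c' = ∑ c'ₘ Yᵐ` (expansion in
`Y = π / X`), related by `c'ₘ = c₋ₘ π⁻ᵐ` (`NodeRel`).  In particular `‖c₋ₙ‖ ≤ ‖c'‖ ‖π‖ⁿ`: the
`X`-expansion is the normal form `∑_{n ≥ 0} aₙ Xⁿ + ∑_{n ≥ 1} bₙ Yⁿ` with bounded `aₙ, bₙ`.

* `NodeB π` : the node algebra, a complete ultrametric normed `K`-algebra with norm
  `max ‖toX g‖ ‖toY g‖`; its closed unit ball is the integral node ring `W[[X,Y]]/(XY - π)`.
* `toX toY : NodeB π →ₐ[K] BAmice K` : the two boundary expansions, injective, norm nonincreasing.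
* `monomial k a = a Xᵏ`, `X`, `Y`, `X_mul_Y : X * Y = algebraMap K _ π`.
* `ofX` / `ofY` : constructors from one expansion with the decay condition.
* `swap` : the symmetry `X ↔ Y`.
-/

set_option autoImplicit false
set_option linter.unusedSectionVars false

noncomputable section

namespace Fermat.Agent.FF3.NodeRing

open Filter Topology
open Fermat.Agent.FF3.Amice

variable {K : Type*} [NormedField K] [IsUltrametricDist K] [CompleteSpace K]

/-- the sup distance on a product of ultrametric spaces is ultrametric -/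
theorem isUltrametricDist_prod {A B : Type*} [PseudoMetricSpace A] [PseudoMetricSpace B]
    [IsUltrametricDist A] [IsUltrametricDist B] : IsUltrametricDist (A × B) :=
  ⟨fun x y z => by
    rw [Prod.dist_eq, Prod.dist_eq, Prod.dist_eq]
    refine max_le ?_ ?_
    · exact (IsUltrametricDist.dist_triangle_max x.1 y.1 z.1).trans
        (max_le_max (le_max_left _ _) (le_max_left _ _))
    · exact (IsUltrametricDist.dist_triangle_max x.2 y.2 z.2).trans
        (max_le_max (le_max_right _ _) (le_max_right _ _))⟩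

/-- the coefficient maps of the Amice ring are continuous -/
theorem continuous_coeff (n : ℤ) : Continuous fun c : BAmice K => BAmice.coeff n c :=
  AddMonoidHomClass.continuous_of_bound (BAmice.coeff n) 1 fun c => by
    rw [one_mul]; exact BAmice.norm_coeff_le n c

/-! ### the relation between the two expansions -/

/-- `c'` is the `Y`-expansion of the function whose `X`-expansion is `c` (`Y = π / X`) -/
def NodeRel (π : K) (c c' : BAmice K) : Prop :=
  ∀ m : ℤ, BAmice.coeff m c' = BAmice.coeff (-m) c * π ^ (-m)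

namespace NodeRel

variable {π : K} {c c' d d' : BAmice K}

theorem zero : NodeRel π (0 : BAmice K) 0 := fun m => by simp

theorem add (h : NodeRel π c c') (h' : NodeRel π d d') : NodeRel π (c + d) (c' + d') := fun m => by
  rw [BAmice.coeff_add, BAmice.coeff_add, h m, h' m, add_mul]

theorem smul (a : K) (h : NodeRel π c c') : NodeRel π (a • c) (a • c') := fun m => by
  rw [BAmice.coeff_smul, BAmice.coeff_smul, h m, mul_assoc]

theorem single (_hπ : π ≠ 0) (k : ℤ) (a : K) :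
    NodeRel π (BAmice.single k a) (BAmice.single (-k) (a * π ^ k)) := fun m => by
  rw [BAmice.coeff_single, BAmice.coeff_single]
  by_cases h : m = -k
  · subst h
    rw [if_pos rfl, if_pos (neg_neg k), neg_neg]
  · rw [if_neg h, if_neg (fun h' => h (by omega)), zero_mul]

theorem const (a : K) :
    NodeRel π (algebraMap K (BAmice K) a) (algebraMap K (BAmice K) a) := fun m => by
  rw [BAmice.coeff_algebraMap, BAmice.coeff_algebraMap]
  by_cases h : m = 0
  · subst h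
    simp
  · rw [if_neg h, if_neg (fun h' => h (by omega)), zero_mul]

theorem symm (hπ : π ≠ 0) (h : NodeRel π c c') : NodeRel π c' c := fun m => by
  rw [h (-m), neg_neg, mul_assoc, ← zpow_add₀ hπ]
  simp

theorem unique (h : NodeRel π c c') (h' : NodeRel π c d') : c' = d' :=
  BAmice.ext fun m => by rw [h m, h' m]

theorem eq_zero (h : NodeRel π (0 : BAmice K) c') : c' = 0 := h.unique zero

theorem mul (hπ : π ≠ 0) (h : NodeRel π c c') (h' : NodeRel π d d') :
    NodeRel π (c * d) (c' * d') := fun m => by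
  rw [BAmice.coeff_mul, BAmice.coeff_mul]
  have h1 : ∀ i : ℤ, BAmice.coeff i c' * BAmice.coeff (m - i) d'
      = (BAmice.coeff (-i) c * BAmice.coeff (-m - -i) d) * π ^ (-m) := by
    intro i
    rw [h i, h' (m - i)]
    have e1 : -(m - i) = -m - -i := by ring
    have e2 : π ^ (-m) = π ^ (-i) * π ^ (-(m - i)) := by
      rw [← zpow_add₀ hπ]
      congr 1
      ring
    rw [e1] at e2 ⊢
    rw [e2]
    ring
  rw [tsum_congr h1, tsum_mul_right]
  congr 1
  exact (Equiv.neg ℤ).tsum_eq fun j : ℤ => BAmice.coeff j c * BAmice.coeff (-m - j) d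

/-- the decay of the negative coefficients -/
theorem norm_coeff_le (hπ : π ≠ 0) (h : NodeRel π c c') (n : ℤ) :
    ‖BAmice.coeff n c‖ ≤ ‖c'‖ * ‖π‖ ^ (-n) := by
  rw [(h.symm hπ) n, norm_mul, norm_zpow]
  exact mul_le_mul_of_nonneg_right (BAmice.norm_coeff_le _ _) (zpow_nonneg (norm_nonneg _) _)

end NodeRel

/-! ### the node algebra -/

/-- the node algebra as a subalgebra of `BAmice K × BAmice K` (everything if `π = 0`) -/
def nodeSubalgebra (π : K) : Subalgebra K (BAmice K × BAmice K) where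
  carrier := {p | π ≠ 0 → NodeRel π p.1 p.2}
  mul_mem' := fun {p q} hp hq h => (hp h).mul h (hq h)
  one_mem' := fun _ => by
    have := NodeRel.const (π := π) (1 : K)
    rwa [map_one] at this
  add_mem' := fun {p q} hp hq h => (hp h).add (hq h)
  zero_mem' := fun _ => NodeRel.zero
  algebraMap_mem' := fun a _ => NodeRel.const a

theorem mem_nodeSubalgebra {π : K} {p : BAmice K × BAmice K} :
    p ∈ nodeSubalgebra π ↔ (π ≠ 0 → NodeRel π p.1 p.2) := Iff.rfl

/-- **The node algebra** `W[[X,Y]]/(XY - π)[1/ϖ]` (`W` the unit ball of `K`). -/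
abbrev NodeB (π : K) : Type _ := ↥(nodeSubalgebra π)

variable {π : K}

instance : IsUltrametricDist (NodeB π) :=
  haveI : IsUltrametricDist (BAmice K × BAmice K) := isUltrametricDist_prod
  inferInstance

instance : NormOneClass (NodeB π) := ⟨by
  show ‖((1 : BAmice K), (1 : BAmice K))‖ = 1
  rw [Prod.norm_def]
  simp⟩

theorem isClosed_nodeSubalgebra (π : K) :
    IsClosed ((nodeSubalgebra π : Subalgebra K (BAmice K × BAmice K)) : Set (BAmice K × BAmice K)) := by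
  by_cases hπ : π = 0
  · have : ((nodeSubalgebra π : Subalgebra K (BAmice K × BAmice K)) : Set (BAmice K × BAmice K))
        = Set.univ := by
      ext p
      simp only [Set.mem_univ, iff_true]
      exact mem_nodeSubalgebra.2 fun h => absurd hπ h
    rw [this]
    exact isClosed_univ
  · have : ((nodeSubalgebra π : Subalgebra K (BAmice K × BAmice K)) : Set (BAmice K × BAmice K))
        = ⋂ m : ℤ, {p | BAmice.coeff m p.2 = BAmice.coeff (-m) p.1 * π ^ (-m)} := by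
      ext p
      rw [Set.mem_iInter]
      exact ⟨fun h => mem_nodeSubalgebra.1 h hπ, fun h => mem_nodeSubalgebra.2 fun _ => h⟩
    rw [this]
    refine isClosed_iInter fun m => isClosed_eq ?_ ?_
    · exact (continuous_coeff m).comp continuous_snd
    · exact ((continuous_coeff (-m)).comp continuous_fst).mul continuous_const

instance : CompleteSpace (NodeB π) := (isClosed_nodeSubalgebra π).completeSpace_coe

/-- the expansion in `X` (restriction to the `X`-boundary) -/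
def toX : NodeB π →ₐ[K] BAmice K := (AlgHom.fst K (BAmice K) (BAmice K)).comp (nodeSubalgebra π).val

/-- the expansion in `Y` (restriction to the `Y`-boundary) -/
def toY : NodeB π →ₐ[K] BAmice K := (AlgHom.snd K (BAmice K) (BAmice K)).comp (nodeSubalgebra π).val

theorem nodeRel (hπ : π ≠ 0) (g : NodeB π) : NodeRel π (toX g) (toY g) :=
  mem_nodeSubalgebra.1 g.2 hπ

theorem coeff_toY (hπ : π ≠ 0) (g : NodeB π) (m : ℤ) :
    BAmice.coeff m (toY g) = BAmice.coeff (-m) (toX g) * π ^ (-m) := nodeRel hπ g m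

theorem coeff_toX (hπ : π ≠ 0) (g : NodeB π) (m : ℤ) :
    BAmice.coeff m (toX g) = BAmice.coeff (-m) (toY g) * π ^ (-m) := (nodeRel hπ g).symm hπ m

theorem norm_def (g : NodeB π) : ‖g‖ = max ‖toX g‖ ‖toY g‖ := rfl

theorem norm_toX_le (g : NodeB π) : ‖toX g‖ ≤ ‖g‖ := le_max_left _ _

theorem norm_toY_le (g : NodeB π) : ‖toY g‖ ≤ ‖g‖ := le_max_right _ _

theorem norm_le_iff {g : NodeB π} {r : ℝ} : ‖g‖ ≤ r ↔ ‖toX g‖ ≤ r ∧ ‖toY g‖ ≤ r := max_le_iff

theorem norm_lt_iff {g : NodeB π} {r : ℝ} : ‖g‖ < r ↔ ‖toX g‖ < r ∧ ‖toY g‖ < r := max_lt_iff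

theorem ext_toX_toY {g h : NodeB π} (h1 : toX g = toX h) (h2 : toY g = toY h) : g = h :=
  Subtype.ext (Prod.ext h1 h2)

theorem toX_injective (hπ : π ≠ 0) : Function.Injective (toX : NodeB π → BAmice K) := fun g h e =>
  ext_toX_toY e ((e ▸ nodeRel hπ g).unique (nodeRel hπ h))

theorem toY_injective (hπ : π ≠ 0) : Function.Injective (toY : NodeB π → BAmice K) := fun g h e =>
  ext_toX_toY (((e ▸ (nodeRel hπ g).symm hπ)).unique ((nodeRel hπ h).symm hπ)) e

/-- the decay of the negative `X`-coefficients -/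
theorem norm_coeff_toX_le (hπ : π ≠ 0) (g : NodeB π) (n : ℤ) :
    ‖BAmice.coeff n (toX g)‖ ≤ ‖toY g‖ * ‖π‖ ^ (-n) := (nodeRel hπ g).norm_coeff_le hπ n

theorem norm_coeff_toY_le (hπ : π ≠ 0) (g : NodeB π) (n : ℤ) :
    ‖BAmice.coeff n (toY g)‖ ≤ ‖toX g‖ * ‖π‖ ^ (-n) :=
  ((nodeRel hπ g).symm hπ).norm_coeff_le hπ n

/-! ### the symmetry `X ↔ Y` -/

/-- the symmetry exchanging the two coordinates -/
def swap (π : K) : NodeB π ≃ₐ[K] NodeB π where
  toFun g := ⟨(g.1.2, g.1.1), mem_nodeSubalgebra.2 fun h => (mem_nodeSubalgebra.1 g.2 h).symm h⟩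
  invFun g := ⟨(g.1.2, g.1.1), mem_nodeSubalgebra.2 fun h => (mem_nodeSubalgebra.1 g.2 h).symm h⟩
  left_inv _ := rfl
  right_inv _ := rfl
  map_mul' _ _ := rfl
  map_add' _ _ := rfl
  commutes' _ := rfl

@[simp] theorem toX_swap (g : NodeB π) : toX (swap π g) = toY g := rfl

@[simp] theorem toY_swap (g : NodeB π) : toY (swap π g) = toX g := rfl

@[simp] theorem swap_swap (g : NodeB π) : swap π (swap π g) = g := rfl

theorem norm_swap (g : NodeB π) : ‖swap π g‖ = ‖g‖ := max_comm _ _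

/-! ### monomials, `X`, `Y` -/

/-- the monomial `a Xᵏ` (`= a π⁻ᵏ Y⁻ᵏ`) -/
def monomial (hπ : π ≠ 0) (k : ℤ) (a : K) : NodeB π :=
  ⟨(BAmice.single k a, BAmice.single (-k) (a * π ^ k)),
    mem_nodeSubalgebra.2 fun _ => NodeRel.single hπ k a⟩

@[simp] theorem toX_monomial (hπ : π ≠ 0) (k : ℤ) (a : K) :
    toX (monomial hπ k a) = BAmice.single k a := rfl

@[simp] theorem toY_monomial (hπ : π ≠ 0) (k : ℤ) (a : K) :
    toY (monomial hπ k a) = BAmice.single (-k) (a * π ^ k) := rfl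

theorem monomial_mul_monomial (hπ : π ≠ 0) (j k : ℤ) (a b : K) :
    monomial hπ j a * monomial hπ k b = monomial hπ (j + k) (a * b) :=
  toX_injective hπ (by
    rw [map_mul, toX_monomial, toX_monomial, toX_monomial, BAmice.single_mul_single])

theorem monomial_zero (hπ : π ≠ 0) (a : K) : monomial hπ 0 a = algebraMap K (NodeB π) a :=
  toX_injective hπ (by
    rw [toX_monomial, AlgHom.commutes]
    apply BAmice.ext
    intro n
    rw [BAmice.coeff_single, BAmice.coeff_algebraMap])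

/-- the coordinate `X` -/
def X (hπ : π ≠ 0) : NodeB π := monomial hπ 1 1

/-- the coordinate `Y = π / X` -/
def Y (hπ : π ≠ 0) : NodeB π := monomial hπ (-1) π

theorem X_mul_Y (hπ : π ≠ 0) : X hπ * Y hπ = algebraMap K (NodeB π) π := by
  rw [X, Y, monomial_mul_monomial, ← monomial_zero hπ]
  congr 1
  ring

theorem toX_X (hπ : π ≠ 0) : toX (X hπ) = ((BAmice.X : (BAmice K)ˣ) : BAmice K) := rfl

theorem toY_Y (hπ : π ≠ 0) : toY (Y hπ) = ((BAmice.X : (BAmice K)ˣ) : BAmice K) := by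
  show BAmice.single (- -1) (π * π ^ (-1 : ℤ)) = BAmice.single 1 1
  rw [neg_neg, zpow_neg_one, mul_inv_cancel₀ hπ]

theorem toX_Y (hπ : π ≠ 0) : toX (Y hπ) = π • ((BAmice.X⁻¹ : (BAmice K)ˣ) : BAmice K) := by
  apply BAmice.ext
  intro n
  rw [BAmice.coeff_smul, BAmice.coe_X_inv]
  show BAmice.coeff n (BAmice.single (-1) π) = _
  rw [BAmice.coeff_single, BAmice.coeff_single]
  split_ifs <;> simp

theorem toY_X (hπ : π ≠ 0) : toY (X hπ) = π • ((BAmice.X⁻¹ : (BAmice K)ˣ) : BAmice K) := by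
  apply BAmice.ext
  intro n
  rw [BAmice.coeff_smul, BAmice.coe_X_inv]
  show BAmice.coeff n (BAmice.single (-1) (1 * π ^ (1 : ℤ))) = _
  rw [BAmice.coeff_single, BAmice.coeff_single, one_mul, zpow_one]
  split_ifs <;> simp

theorem swap_X (hπ : π ≠ 0) : swap π (X hπ) = Y hπ :=
  toX_injective hπ (by rw [toX_swap, toY_X, toX_Y])

theorem swap_Y (hπ : π ≠ 0) : swap π (Y hπ) = X hπ :=
  toX_injective hπ (by rw [toX_swap, toY_Y, toX_X])

theorem isUnit_X (hπ : π ≠ 0) : IsUnit (X hπ : NodeB π) := by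
  refine IsUnit.of_mul_eq_one (monomial hπ (-1) 1) ?_
  rw [X, monomial_mul_monomial, ← map_one (algebraMap K (NodeB π)), ← monomial_zero hπ]
  congr 1
  ring

theorem isUnit_Y (hπ : π ≠ 0) : IsUnit (Y hπ : NodeB π) := by
  have := (isUnit_X hπ).map (swap π)
  rwa [swap_X] at this

theorem norm_X (hπ : π ≠ 0) (hπ1 : ‖π‖ ≤ 1) : ‖(X hπ : NodeB π)‖ = 1 := by
  rw [norm_def, toX_X, toY_X]
  have h1 : ‖((BAmice.X : (BAmice K)ˣ) : BAmice K)‖ = 1 := by
    rw [BAmice.coe_X]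
    refine le_antisymm (BAmice.norm_le_iff.2 fun n => ?_) ?_
    · rw [BAmice.coeff_single]; split_ifs <;> simp
    · have := BAmice.norm_coeff_le 1 (BAmice.single 1 (1 : K))
      rwa [BAmice.coeff_single_self, norm_one] at this
  have h2 : ‖((BAmice.X⁻¹ : (BAmice K)ˣ) : BAmice K)‖ = 1 := by
    rw [BAmice.coe_X_inv]
    refine le_antisymm (BAmice.norm_le_iff.2 fun n => ?_) ?_
    · rw [BAmice.coeff_single]; split_ifs <;> simp
    · have := BAmice.norm_coeff_le (-1) (BAmice.single (-1) (1 : K))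
      rwa [BAmice.coeff_single_self, norm_one] at this
  rw [h1, norm_smul, h2, mul_one]
  exact max_eq_left hπ1

theorem norm_Y (hπ : π ≠ 0) (hπ1 : ‖π‖ ≤ 1) : ‖(Y hπ : NodeB π)‖ = 1 := by
  rw [← swap_X, norm_swap, norm_X hπ hπ1]

/-! ### constructors from one expansion -/

section Constructors

theorem tendsto_norm_zpow_neg_atBot (hπ1 : ‖π‖ < 1) :
    Tendsto (fun m : ℤ => ‖π‖ ^ (-m)) atBot (𝓝 0) := by
  have h1 : Tendsto (fun m : ℤ => (-m).toNat) atBot atTop :=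
    tendsto_atTop.2 fun N => (eventually_le_atBot (-(N : ℤ))).mono fun m hm => by omega
  have h2 := (tendsto_pow_atTop_nhds_zero_of_lt_one (norm_nonneg π) hπ1).comp h1
  refine h2.congr' ?_
  filter_upwards [eventually_le_atBot (0 : ℤ)] with m hm
  show ‖π‖ ^ (-m).toNat = ‖π‖ ^ (-m)
  rw [← zpow_natCast, Int.toNat_of_nonneg (by omega)]

/-- the coefficients of the other expansion -/
def tauFun (π : K) (c : BAmice K) (m : ℤ) : K := BAmice.coeff (-m) c * π ^ (-m)

theorem norm_tauFun_le (hπ : π ≠ 0) {c : BAmice K} {C : ℝ} (hC : ∀ n, ‖BAmice.coeff n c‖ ≤ C * ‖π‖ ^ (-n))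
    (m : ℤ) : ‖tauFun π c m‖ ≤ C := by
  unfold tauFun
  rw [norm_mul, norm_zpow]
  have hp : 0 < ‖π‖ := norm_pos_iff.2 hπ
  calc ‖BAmice.coeff (-m) c‖ * ‖π‖ ^ (-m) ≤ C * ‖π‖ ^ (- -m) * ‖π‖ ^ (-m) :=
        mul_le_mul_of_nonneg_right (hC (-m)) (zpow_nonneg hp.le _)
    _ = C := by
        rw [mul_assoc, ← zpow_add₀ hp.ne']
        simp

theorem tendsto_tauFun (hπ1 : ‖π‖ < 1) (c : BAmice K) : Tendsto (tauFun π c) atBot (𝓝 0) := by
  rw [tendsto_zero_iff_norm_tendsto_zero]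
  have h0 := (tendsto_norm_zpow_neg_atBot (π := π) hπ1).const_mul ‖c‖
  rw [mul_zero] at h0
  refine squeeze_zero (fun m => norm_nonneg _) (fun m => ?_) h0
  unfold tauFun
  rw [norm_mul, norm_zpow]
  exact mul_le_mul_of_nonneg_right (BAmice.norm_coeff_le _ _) (zpow_nonneg (norm_nonneg _) _)

/-- the other expansion of a series with the decay condition -/
def tau (hπ : π ≠ 0) (hπ1 : ‖π‖ < 1) (c : BAmice K) (C : ℝ) (hC : ∀ n, ‖BAmice.coeff n c‖ ≤ C * ‖π‖ ^ (-n)) : BAmice K :=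
  BAmice.mk (tauFun π c)
    ⟨C, by rintro _ ⟨m, rfl⟩; exact norm_tauFun_le hπ hC m⟩ (tendsto_tauFun hπ1 c)

theorem coeff_tau (hπ : π ≠ 0) (hπ1 : ‖π‖ < 1) (c : BAmice K) (C : ℝ) (hC : ∀ n, ‖BAmice.coeff n c‖ ≤ C * ‖π‖ ^ (-n)) (m : ℤ) :
    BAmice.coeff m (tau hπ hπ1 c C hC) = BAmice.coeff (-m) c * π ^ (-m) := rfl

theorem norm_tau_le (hπ : π ≠ 0) (hπ1 : ‖π‖ < 1) (c : BAmice K) (C : ℝ) (hC : ∀ n, ‖BAmice.coeff n c‖ ≤ C * ‖π‖ ^ (-n)) :
    ‖tau hπ hπ1 c C hC‖ ≤ C :=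
  BAmice.norm_le_iff.2 fun m => norm_tauFun_le hπ hC m

/-- the element of the node algebra with a given `X`-expansion satisfying the decay condition -/
def ofX (hπ : π ≠ 0) (hπ1 : ‖π‖ < 1) (c : BAmice K) (C : ℝ) (hC : ∀ n, ‖BAmice.coeff n c‖ ≤ C * ‖π‖ ^ (-n)) : NodeB π :=
  ⟨(c, tau hπ hπ1 c C hC), mem_nodeSubalgebra.2 fun _ m => coeff_tau hπ hπ1 c C hC m⟩

@[simp] theorem toX_ofX (hπ : π ≠ 0) (hπ1 : ‖π‖ < 1) (c : BAmice K) (C : ℝ) (hC : ∀ n, ‖BAmice.coeff n c‖ ≤ C * ‖π‖ ^ (-n)) :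
    toX (ofX hπ hπ1 c C hC) = c := rfl

theorem norm_toY_ofX_le (hπ : π ≠ 0) (hπ1 : ‖π‖ < 1) (c : BAmice K) (C : ℝ) (hC : ∀ n, ‖BAmice.coeff n c‖ ≤ C * ‖π‖ ^ (-n)) :
    ‖toY (ofX hπ hπ1 c C hC)‖ ≤ C := norm_tau_le hπ hπ1 c C hC

/-- the element of the node algebra with a given `Y`-expansion satisfying the decay condition -/
def ofY (hπ : π ≠ 0) (hπ1 : ‖π‖ < 1) (c : BAmice K) (C : ℝ) (hC : ∀ n, ‖BAmice.coeff n c‖ ≤ C * ‖π‖ ^ (-n)) : NodeB π :=
  swap π (ofX hπ hπ1 c C hC)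

@[simp] theorem toY_ofY (hπ : π ≠ 0) (hπ1 : ‖π‖ < 1) (c : BAmice K) (C : ℝ) (hC : ∀ n, ‖BAmice.coeff n c‖ ≤ C * ‖π‖ ^ (-n)) :
    toY (ofY hπ hπ1 c C hC) = c := rfl

theorem norm_toX_ofY_le (hπ : π ≠ 0) (hπ1 : ‖π‖ < 1) (c : BAmice K) (C : ℝ) (hC : ∀ n, ‖BAmice.coeff n c‖ ≤ C * ‖π‖ ^ (-n)) :
    ‖toX (ofY hπ hπ1 c C hC)‖ ≤ C := norm_tau_le hπ hπ1 c C hC

/-- the image of `toX`: the series with the decay condition -/
theorem mem_range_toX_iff (hπ : π ≠ 0) (hπ1 : ‖π‖ < 1) {c : BAmice K} :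
    c ∈ Set.range (toX : NodeB π → BAmice K) ↔ ∃ C : ℝ, ∀ n, ‖BAmice.coeff n c‖ ≤ C * ‖π‖ ^ (-n) :=
  ⟨by rintro ⟨g, rfl⟩; exact ⟨‖toY g‖, norm_coeff_toX_le hπ g⟩,
    fun ⟨C, hC⟩ => ⟨ofX hπ hπ1 c C hC, rfl⟩⟩

theorem mem_range_toY_iff (hπ : π ≠ 0) (hπ1 : ‖π‖ < 1) {c : BAmice K} :
    c ∈ Set.range (toY : NodeB π → BAmice K) ↔ ∃ C : ℝ, ∀ n, ‖BAmice.coeff n c‖ ≤ C * ‖π‖ ^ (-n) :=
  ⟨by rintro ⟨g, rfl⟩; exact ⟨‖toX g‖, norm_coeff_toY_le hπ g⟩,
    fun ⟨C, hC⟩ => ⟨ofY hπ hπ1 c C hC, rfl⟩⟩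

end Constructors

end Fermat.Agent.FF3.NodeRing

end
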