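import Mathlib
import Fermat.Agent.FF3.NodeRing.Basic

/-!
# FF3 / NodeRing : the integral node ring `NodeInt π = W[[X,Y]]/(XY - π)` (§2c, part 2)

`NodeInt π` is the closed unit ball of the node algebra `NodeB π` (`‖g‖ = max ‖toX g‖ ‖toY g‖`):
the elements `∑_{n ≥ 0} aₙ Xⁿ + ∑_{n ≥ 1} bₙ Yⁿ` with `‖aₙ‖, ‖bₙ‖ ≤ 1`.

* `nodeInt π : Subring (NodeB π)`, `NodeInt π`, `mem_nodeInt_iff` (= (NORM): an element of the node
  algebra whose two boundary expansions are integral is integral).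
* `cInt a ha`, `XInt`, `YInt` : constants and coordinates; `XInt_mul_YInt`.
* `cx k g` : the `k`-th coefficient of the `X`-expansion; `cx_cInt_mul`, `cx_XInt_mul`, `cx_YInt_mul`.
* `smallIdeal`, `pow_le_smallIdeal` : the coefficients of an element of `(ϖ, X, Y) ^ n` are small.
* `IsCoeffLimit`, `exists_isCoeffLimit` : coefficientwise limits.
* `complete` : `NodeInt π` is complete for the ideal `(ϖ, X, Y)` in the elementary form used by
  `Expand.ExpData.complete` (helper5).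
-/

set_option autoImplicit false
set_option linter.unusedSectionVars false

noncomputable section

namespace Fermat.Agent.FF3.NodeRing

open Filter Topology
open Fermat.Agent.FF3.Amice

variable {K : Type*} [NormedField K] [IsUltrametricDist K] [CompleteSpace K] {π : K}

/-! ### the integral node ring -/

/-- the integral node ring as a subring of the node algebra: the closed unit ball -/
def nodeInt (π : K) : Subring (NodeB π) where
  carrier := {g | ‖g‖ ≤ 1}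
  mul_mem' := fun {a b} (ha : ‖a‖ ≤ 1) (hb : ‖b‖ ≤ 1) =>
    show ‖a * b‖ ≤ 1 from (norm_mul_le a b).trans (mul_le_one₀ ha (norm_nonneg _) hb)
  one_mem' := show ‖(1 : NodeB π)‖ ≤ 1 from norm_one.le
  add_mem' := fun {a b} (ha : ‖a‖ ≤ 1) (hb : ‖b‖ ≤ 1) =>
    show ‖a + b‖ ≤ 1 from (IsUltrametricDist.norm_add_le_max a b).trans (max_le ha hb)
  zero_mem' := show ‖(0 : NodeB π)‖ ≤ 1 by rw [norm_zero]; exact zero_le_one
  neg_mem' := fun {a} (ha : ‖a‖ ≤ 1) => show ‖-a‖ ≤ 1 by rwa [norm_neg]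

/-- **The integral node ring** `W[[X,Y]]/(XY - π)` (`W` the closed unit ball of `K`). -/
abbrev NodeInt (π : K) : Type _ := ↥(nodeInt π)

theorem mem_nodeInt {g : NodeB π} : g ∈ nodeInt π ↔ ‖g‖ ≤ 1 := Iff.rfl

/-- **(NORM)** an element of the node algebra is integral iff both boundary expansions are -/
theorem mem_nodeInt_iff {g : NodeB π} : g ∈ nodeInt π ↔ ‖toX g‖ ≤ 1 ∧ ‖toY g‖ ≤ 1 := norm_le_iff

theorem norm_le_one (g : NodeInt π) : ‖(g : NodeB π)‖ ≤ 1 := g.2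

theorem norm_toX_le_one (g : NodeInt π) : ‖toX (g : NodeB π)‖ ≤ 1 := (norm_toX_le _).trans g.2

theorem norm_toY_le_one (g : NodeInt π) : ‖toY (g : NodeB π)‖ ≤ 1 := (norm_toY_le _).trans g.2

/-- the constants -/
def cInt (a : K) (ha : ‖a‖ ≤ 1) : NodeInt π :=
  ⟨algebraMap K (NodeB π) a, by rw [mem_nodeInt, norm_algebraMap']; exact ha⟩

/-- the coordinate `X` -/
def XInt (hπ : π ≠ 0) (hπ1 : ‖π‖ ≤ 1) : NodeInt π := ⟨X hπ, (norm_X hπ hπ1).le⟩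

/-- the coordinate `Y` -/
def YInt (hπ : π ≠ 0) (hπ1 : ‖π‖ ≤ 1) : NodeInt π := ⟨Y hπ, (norm_Y hπ hπ1).le⟩

@[simp] theorem coe_cInt (a : K) (ha : ‖a‖ ≤ 1) :
    ((cInt a ha : NodeInt π) : NodeB π) = algebraMap K (NodeB π) a := rfl

@[simp] theorem coe_XInt (hπ : π ≠ 0) (hπ1 : ‖π‖ ≤ 1) : ((XInt hπ hπ1 : NodeInt π) : NodeB π) = X hπ :=
  rfl

@[simp] theorem coe_YInt (hπ : π ≠ 0) (hπ1 : ‖π‖ ≤ 1) : ((YInt hπ hπ1 : NodeInt π) : NodeB π) = Y hπ :=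
  rfl

theorem XInt_mul_YInt (hπ : π ≠ 0) (hπ1 : ‖π‖ ≤ 1) :
    XInt hπ hπ1 * YInt hπ hπ1 = cInt π hπ1 := Subtype.ext (X_mul_Y hπ)

theorem cInt_add (a b : K) (ha : ‖a‖ ≤ 1) (hb : ‖b‖ ≤ 1) (hab : ‖a + b‖ ≤ 1) :
    (cInt (a + b) hab : NodeInt π) = cInt a ha + cInt b hb := Subtype.ext (map_add _ a b)

theorem cInt_mul (a b : K) (ha : ‖a‖ ≤ 1) (hb : ‖b‖ ≤ 1) (hab : ‖a * b‖ ≤ 1) :
    (cInt (a * b) hab : NodeInt π) = cInt a ha * cInt b hb := Subtype.ext (map_mul _ a b)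

theorem cInt_one : (cInt 1 norm_one.le : NodeInt π) = 1 := Subtype.ext (map_one _)

/-- the constants, as a ring homomorphism from a subring of the unit ball of `K` -/
def constHom (π : K) (S : Subring K) (hS : ∀ a ∈ S, ‖a‖ ≤ 1) : S →+* NodeInt π :=
  ((algebraMap K (NodeB π)).comp S.subtype).codRestrict (nodeInt π) fun a => by
    rw [mem_nodeInt]
    show ‖algebraMap K (NodeB π) (a : K)‖ ≤ 1
    rw [norm_algebraMap']
    exact hS a a.2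

@[simp] theorem constHom_apply (S : Subring K) (hS : ∀ a ∈ S, ‖a‖ ≤ 1) (a : S) :
    constHom π S hS a = cInt (a : K) (hS a a.2) := rfl

/-! ### the coefficients of the `X`-expansion -/

/-- the `k`-th coefficient of the expansion in `X` -/
def cx (k : ℤ) (g : NodeInt π) : K := BAmice.coeff k (toX (g : NodeB π))

theorem cx_add (k : ℤ) (g h : NodeInt π) : cx k (g + h) = cx k g + cx k h := by
  unfold cx
  rw [Subring.coe_add, map_add, BAmice.coeff_add]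

theorem cx_sub (k : ℤ) (g h : NodeInt π) : cx k (g - h) = cx k g - cx k h := by
  unfold cx
  show BAmice.coeff k (toX ((g : NodeB π) - (h : NodeB π))) = _
  rw [map_sub, BAmice.coeff_sub]

theorem cx_zero (k : ℤ) : cx k (0 : NodeInt π) = 0 := by
  unfold cx
  rw [Subring.coe_zero, map_zero, BAmice.coeff_zero]

theorem cx_cInt_mul (k : ℤ) (a : K) (ha : ‖a‖ ≤ 1) (g : NodeInt π) :
    cx k (cInt a ha * g) = a * cx k g := by
  unfold cx
  rw [Subring.coe_mul, coe_cInt, ← Algebra.smul_def, map_smul, BAmice.coeff_smul]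

theorem cx_XInt_mul (hπ : π ≠ 0) (hπ1 : ‖π‖ ≤ 1) (k : ℤ) (g : NodeInt π) :
    cx k (XInt hπ hπ1 * g) = cx (k - 1) g := by
  unfold cx
  rw [Subring.coe_mul, coe_XInt, map_mul, X, toX_monomial, BAmice.coeff_single_mul, one_mul]

theorem cx_YInt_mul (hπ : π ≠ 0) (hπ1 : ‖π‖ ≤ 1) (k : ℤ) (g : NodeInt π) :
    cx k (YInt hπ hπ1 * g) = π * cx (k + 1) g := by
  unfold cx
  rw [Subring.coe_mul, coe_YInt, map_mul, Y, toX_monomial, BAmice.coeff_single_mul, sub_neg_eq_add]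

theorem ext_cx (hπ : π ≠ 0) {g h : NodeInt π} (e : ∀ k, cx k g = cx k h) : g = h :=
  Subtype.ext (toX_injective hπ (BAmice.ext e))

theorem norm_cx_le_one (k : ℤ) (g : NodeInt π) : ‖cx k g‖ ≤ 1 :=
  (BAmice.norm_coeff_le _ _).trans (norm_toX_le_one g)

theorem norm_cx_le_zpow (hπ : π ≠ 0) (k : ℤ) (g : NodeInt π) : ‖cx k g‖ ≤ ‖π‖ ^ (-k) := by
  refine (norm_coeff_toX_le hπ (g : NodeB π) k).trans ?_
  calc ‖toY (g : NodeB π)‖ * ‖π‖ ^ (-k) ≤ 1 * ‖π‖ ^ (-k) :=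
        mul_le_mul_of_nonneg_right (norm_toY_le_one g) (zpow_nonneg (norm_nonneg _) _)
    _ = ‖π‖ ^ (-k) := one_mul _

/-! ### the weight `ρ = √‖π‖` and the ideals of small elements -/

/-- the radius of the middle circle of the annulus -/
def rho (π : K) : ℝ := Real.sqrt ‖π‖

theorem rho_mul_self (π : K) : rho π * rho π = ‖π‖ := Real.mul_self_sqrt (norm_nonneg π)

theorem rho_pos (hπ : π ≠ 0) : 0 < rho π := Real.sqrt_pos.2 (norm_pos_iff.2 hπ)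

theorem rho_lt_one (hπ1 : ‖π‖ < 1) : rho π < 1 := by
  unfold rho
  rw [Real.sqrt_lt' one_pos]
  simpa using hπ1

theorem norm_cx_le_rho (hπ : π ≠ 0) (hπ1 : ‖π‖ < 1) (k : ℤ) (g : NodeInt π) :
    ‖cx k g‖ ≤ rho π ^ (-k) := by
  have hρ := rho_pos hπ
  have hρ1 := (rho_lt_one hπ1).le
  rcases le_or_gt 0 k with hk | hk
  · exact (norm_cx_le_one k g).trans (one_le_zpow_of_nonpos₀ hρ hρ1 (by omega))
  · refine (norm_cx_le_zpow hπ k g).trans ?_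
    rw [← rho_mul_self, mul_zpow]
    calc rho π ^ (-k) * rho π ^ (-k) ≤ rho π ^ (-k) * 1 :=
          mul_le_mul_of_nonneg_left (zpow_le_one₀ hρ hρ1 (by omega)) (zpow_nonneg hρ.le _)
      _ = rho π ^ (-k) := mul_one _

/-- the ideal of the elements all of whose coefficients satisfy `‖cₖ‖ ≤ t ρ⁻ᵏ` -/
def smallIdeal (hπ : π ≠ 0) (hπ1 : ‖π‖ < 1) (t : ℝ) (ht : 0 ≤ t) : Ideal (NodeInt π) where
  carrier := {g | ∀ k : ℤ, ‖cx k g‖ ≤ t * rho π ^ (-k)}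
  add_mem' := fun {a b} ha hb k => by
    rw [cx_add]
    exact (IsUltrametricDist.norm_add_le_max _ _).trans (max_le (ha k) (hb k))
  zero_mem' := fun k => by
    rw [cx_zero, norm_zero]
    exact mul_nonneg ht (zpow_nonneg (rho_pos hπ).le _)
  smul_mem' := fun h g hg k => by
    show ‖cx k (h * g)‖ ≤ t * rho π ^ (-k)
    have hρ := rho_pos hπ
    unfold cx
    rw [Subring.coe_mul, map_mul]
    refine BAmice.norm_conv_le_of_forall _ _ k (mul_nonneg ht (zpow_nonneg hρ.le _)) fun i => ?_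
    rw [norm_mul]
    have h1 : ‖BAmice.coeff i (toX (h : NodeB π))‖ ≤ rho π ^ (-i) := norm_cx_le_rho hπ hπ1 i h
    have h2 : ‖BAmice.coeff (k - i) (toX (g : NodeB π))‖ ≤ t * rho π ^ (-(k - i)) := hg (k - i)
    calc ‖BAmice.coeff i (toX (h : NodeB π))‖ * ‖BAmice.coeff (k - i) (toX (g : NodeB π))‖
        ≤ rho π ^ (-i) * (t * rho π ^ (-(k - i))) :=
          mul_le_mul h1 h2 (norm_nonneg _) (zpow_nonneg hρ.le _)
      _ = t * rho π ^ (-k) := by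
          rw [mul_left_comm, ← zpow_add₀ hρ.ne']
          congr 2
          ring

theorem mem_smallIdeal {hπ : π ≠ 0} {hπ1 : ‖π‖ < 1} {t : ℝ} {ht : 0 ≤ t} {g : NodeInt π} :
    g ∈ smallIdeal hπ hπ1 t ht ↔ ∀ k : ℤ, ‖cx k g‖ ≤ t * rho π ^ (-k) := Iff.rfl

/-- the contraction factor of the ideal `(ϖ, X, Y)` -/
def theta (π ϖ : K) : ℝ := max (rho π) ‖ϖ‖

theorem theta_nonneg (π ϖ : K) : 0 ≤ theta π ϖ := le_max_of_le_right (norm_nonneg _)

theorem theta_lt_one (hπ1 : ‖π‖ < 1) {ϖ : K} (hϖ : ‖ϖ‖ < 1) : theta π ϖ < 1 :=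
  max_lt (rho_lt_one hπ1) hϖ

/-- the ideal `(ϖ, X, Y)` of the integral node ring -/
def mIdeal (hπ : π ≠ 0) (hπ1 : ‖π‖ < 1) (ϖ : K) (hϖ : ‖ϖ‖ ≤ 1) : Ideal (NodeInt π) :=
  Ideal.span {cInt ϖ hϖ, XInt hπ hπ1.le, YInt hπ hπ1.le}

theorem gen_mul_mem_smallIdeal (hπ : π ≠ 0) (hπ1 : ‖π‖ < 1) (ϖ : K) (hϖ : ‖ϖ‖ ≤ 1) {t : ℝ}
    (ht : 0 ≤ t) {g : NodeInt π} (hg : g ∈ smallIdeal hπ hπ1 t ht) :
    cInt ϖ hϖ * g ∈ smallIdeal hπ hπ1 (theta π ϖ * t) (mul_nonneg (theta_nonneg _ _) ht) ∧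
    XInt hπ hπ1.le * g ∈ smallIdeal hπ hπ1 (theta π ϖ * t) (mul_nonneg (theta_nonneg _ _) ht) ∧
    YInt hπ hπ1.le * g ∈ smallIdeal hπ hπ1 (theta π ϖ * t) (mul_nonneg (theta_nonneg _ _) ht) := by
  have hρ := rho_pos hπ
  have hθ1 : rho π ≤ theta π ϖ := le_max_left _ _
  have hθ2 : ‖ϖ‖ ≤ theta π ϖ := le_max_right _ _
  refine ⟨fun k => ?_, fun k => ?_, fun k => ?_⟩
  · rw [cx_cInt_mul, norm_mul, mul_assoc]
    exact mul_le_mul hθ2 (hg k) (norm_nonneg _) (theta_nonneg _ _)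
  · rw [cx_XInt_mul]
    refine (hg (k - 1)).trans ?_
    have e : rho π ^ (-(k - 1)) = rho π * rho π ^ (-k) := by
      rw [neg_sub, sub_eq_add_neg, zpow_add₀ hρ.ne', zpow_one]
    rw [e]
    calc t * (rho π * rho π ^ (-k)) = rho π * (t * rho π ^ (-k)) := by ring
      _ ≤ theta π ϖ * (t * rho π ^ (-k)) :=
          mul_le_mul_of_nonneg_right hθ1 (mul_nonneg ht (zpow_nonneg hρ.le _))
      _ = theta π ϖ * t * rho π ^ (-k) := by ring
  · rw [cx_YInt_mul, norm_mul]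
    have e : ‖π‖ * rho π ^ (-(k + 1)) = rho π * rho π ^ (-k) := by
      rw [← rho_mul_self, neg_add, zpow_add₀ hρ.ne', zpow_neg_one]
      field_simp
    calc ‖π‖ * ‖cx (k + 1) g‖ ≤ ‖π‖ * (t * rho π ^ (-(k + 1))) :=
          mul_le_mul_of_nonneg_left (hg (k + 1)) (norm_nonneg _)
      _ = rho π * (t * rho π ^ (-k)) := by
          rw [mul_left_comm, e]; ring
      _ ≤ theta π ϖ * (t * rho π ^ (-k)) :=
          mul_le_mul_of_nonneg_right hθ1 (mul_nonneg ht (zpow_nonneg hρ.le _))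
      _ = theta π ϖ * t * rho π ^ (-k) := by ring

theorem mul_mem_smallIdeal (hπ : π ≠ 0) (hπ1 : ‖π‖ < 1) (ϖ : K) (hϖ : ‖ϖ‖ ≤ 1) {t : ℝ}
    (ht : 0 ≤ t) {g s : NodeInt π} (hg : g ∈ smallIdeal hπ hπ1 t ht)
    (hs : s ∈ mIdeal hπ hπ1 ϖ hϖ) :
    g * s ∈ smallIdeal hπ hπ1 (theta π ϖ * t) (mul_nonneg (theta_nonneg _ _) ht) := by
  obtain ⟨h1, h2, h3⟩ := gen_mul_mem_smallIdeal hπ hπ1 ϖ hϖ ht hg
  unfold mIdeal at hs
  refine Submodule.span_induction (p := fun s _ => g * s ∈ smallIdeal hπ hπ1 (theta π ϖ * t)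
    (mul_nonneg (theta_nonneg _ _) ht)) ?_ ?_ ?_ ?_ hs
  · intro s hs
    rcases hs with rfl | rfl | rfl
    · rwa [mul_comm g]
    · rwa [mul_comm g]
    · rwa [mul_comm g]
  · rw [mul_zero]; exact Ideal.zero_mem _
  · intro x y _ _ hx hy
    rw [mul_add]; exact Ideal.add_mem _ hx hy
  · intro a x _ hx
    rw [smul_eq_mul, mul_left_comm]
    exact Ideal.mul_mem_left _ _ hx

/-- the coefficients of an element of `(ϖ, X, Y) ^ n` are small -/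
theorem pow_le_smallIdeal (hπ : π ≠ 0) (hπ1 : ‖π‖ < 1) (ϖ : K) (hϖ : ‖ϖ‖ ≤ 1) (n : ℕ) :
    mIdeal hπ hπ1 ϖ hϖ ^ n ≤ smallIdeal hπ hπ1 (theta π ϖ ^ n) (pow_nonneg (theta_nonneg _ _) n) := by
  induction n with
  | zero =>
    intro g _ k
    rw [pow_zero, one_mul]
    exact norm_cx_le_rho hπ hπ1 k g
  | succ n ih =>
    rw [pow_succ]
    refine Ideal.mul_le.2 fun g hg s hs => ?_
    have := mul_mem_smallIdeal hπ hπ1 ϖ hϖ (pow_nonneg (theta_nonneg _ _) n) (ih hg) hs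
    intro k
    have h := this k
    rwa [← pow_succ'] at h

theorem norm_cx_le_of_mem_pow (hπ : π ≠ 0) (hπ1 : ‖π‖ < 1) (ϖ : K) (hϖ : ‖ϖ‖ ≤ 1) {n : ℕ}
    {g : NodeInt π} (hg : g ∈ mIdeal hπ hπ1 ϖ hϖ ^ n) (k : ℤ) :
    ‖cx k g‖ ≤ theta π ϖ ^ n * rho π ^ (-k) := pow_le_smallIdeal hπ hπ1 ϖ hϖ n hg k

/-! ### coefficientwise limits -/

/-- `L` is the coefficientwise limit of the sequence `s` -/
def IsCoeffLimit (s : ℕ → NodeInt π) (L : NodeInt π) : Prop :=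
  ∀ k : ℤ, Tendsto (fun m => cx k (s m)) atTop (𝓝 (cx k L))

namespace IsCoeffLimit

variable {s s' : ℕ → NodeInt π} {L L' : NodeInt π}

theorem unique (hπ : π ≠ 0) (h : IsCoeffLimit s L) (h' : IsCoeffLimit s L') : L = L' :=
  ext_cx hπ fun k => tendsto_nhds_unique (h k) (h' k)

theorem add (h : IsCoeffLimit s L) (h' : IsCoeffLimit s' L') :
    IsCoeffLimit (fun m => s m + s' m) (L + L') := fun k => by
  simp only [cx_add]
  exact (h k).add (h' k)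

theorem sub_const (h : IsCoeffLimit s L) (c : NodeInt π) :
    IsCoeffLimit (fun m => s m - c) (L - c) := fun k => by
  simp only [cx_sub]
  exact (h k).sub_const _

theorem cInt_mul (h : IsCoeffLimit s L) (a : K) (ha : ‖a‖ ≤ 1) :
    IsCoeffLimit (fun m => cInt a ha * s m) (cInt a ha * L) := fun k => by
  simp only [cx_cInt_mul]
  exact (h k).const_mul a

theorem XInt_mul (h : IsCoeffLimit s L) (hπ : π ≠ 0) (hπ1 : ‖π‖ ≤ 1) :
    IsCoeffLimit (fun m => XInt hπ hπ1 * s m) (XInt hπ hπ1 * L) := fun k => by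
  simp only [cx_XInt_mul]
  exact h (k - 1)

theorem YInt_mul (h : IsCoeffLimit s L) (hπ : π ≠ 0) (hπ1 : ‖π‖ ≤ 1) :
    IsCoeffLimit (fun m => YInt hπ hπ1 * s m) (YInt hπ hπ1 * L) := fun k => by
  simp only [cx_YInt_mul]
  exact (h (k + 1)).const_mul π

theorem shift (h : IsCoeffLimit s L) (n : ℕ) : IsCoeffLimit (fun m => s (m + n)) L := fun k =>
  (tendsto_add_atTop_iff_nat (f := fun m => cx k (s m)) n).2 (h k)

end IsCoeffLimit

/-- a sequence whose coefficients have increments tending to `0` has a coefficientwise limit -/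
theorem exists_isCoeffLimit (hπ : π ≠ 0) (hπ1 : ‖π‖ < 1) (s : ℕ → NodeInt π)
    (hs : ∀ k : ℤ, Tendsto (fun m => cx k (s (m + 1)) - cx k (s m)) atTop (𝓝 0)) :
    ∃ L : NodeInt π, IsCoeffLimit s L := by
  have h1 : ∀ k : ℤ, ∃ l : K, Tendsto (fun m => cx k (s m)) atTop (𝓝 l) := fun k =>
    cauchySeq_tendsto_of_complete
      (NonarchimedeanAddGroup.cauchySeq_of_tendsto_sub_nhds_zero (hs k))
  choose l hl using h1
  have hl1 : ∀ k, ‖l k‖ ≤ 1 := fun k =>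
    le_of_tendsto' ((continuous_norm.tendsto _).comp (hl k)) fun m => norm_cx_le_one k (s m)
  have hl2 : ∀ k, ‖l k‖ ≤ ‖π‖ ^ (-k) := fun k =>
    le_of_tendsto' ((continuous_norm.tendsto _).comp (hl k)) fun m => norm_cx_le_zpow hπ k (s m)
  have hb : BddAbove (Set.range fun n => ‖l n‖) := ⟨1, by rintro _ ⟨n, rfl⟩; exact hl1 n⟩
  have h0 : Tendsto l atBot (𝓝 0) := by
    rw [tendsto_zero_iff_norm_tendsto_zero]
    exact squeeze_zero (fun _ => norm_nonneg _) hl2 (tendsto_norm_zpow_neg_atBot hπ1)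
  have hC : ∀ n, ‖BAmice.coeff n (BAmice.mk l hb h0)‖ ≤ 1 * ‖π‖ ^ (-n) := fun n => by
    rw [one_mul, BAmice.coeff_mk]
    exact hl2 n
  refine ⟨⟨ofX hπ hπ1 (BAmice.mk l hb h0) 1 hC, mem_nodeInt_iff.2 ⟨?_, norm_toY_ofX_le hπ hπ1 _ 1 hC⟩⟩,
    fun k => ?_⟩
  · rw [toX_ofX]
    exact BAmice.norm_le_iff.2 fun n => by rw [BAmice.coeff_mk]; exact hl1 n
  · show Tendsto _ _ (𝓝 (BAmice.coeff k (toX (ofX hπ hπ1 (BAmice.mk l hb h0) 1 hC))))
    rw [toX_ofX, BAmice.coeff_mk]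
    exact hl k

/-- an element of `(a, b, c) J` is `a x₀ + b x₁ + c x₂` with `xᵢ ∈ J` -/
theorem exists_decomp {R : Type*} [CommRing R] {J : Ideal R} {a b c x : R}
    (hx : x ∈ Ideal.span {a, b, c} * J) :
    ∃ x₀ ∈ J, ∃ x₁ ∈ J, ∃ x₂ ∈ J, x = a * x₀ + b * x₁ + c * x₂ := by
  refine Submodule.mul_induction_on hx ?_ ?_
  · intro r hr j hj
    rw [Ideal.mem_span_insert] at hr
    obtain ⟨u, z, hz, rfl⟩ := hr
    rw [Ideal.mem_span_pair] at hz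
    obtain ⟨v, w, rfl⟩ := hz
    exact ⟨u * j, J.mul_mem_left _ hj, v * j, J.mul_mem_left _ hj, w * j, J.mul_mem_left _ hj,
      by ring⟩
  · rintro x y ⟨x₀, h0, x₁, h1, x₂, h2, rfl⟩ ⟨y₀, k0, y₁, k1, y₂, k2, rfl⟩
    exact ⟨x₀ + y₀, J.add_mem h0 k0, x₁ + y₁, J.add_mem h1 k1, x₂ + y₂, J.add_mem h2 k2, by ring⟩

theorem tendsto_theta_pow (hπ1 : ‖π‖ < 1) {ϖ : K} (hϖ : ‖ϖ‖ < 1) (n : ℕ) (k : ℤ) :
    Tendsto (fun m : ℕ => theta π ϖ ^ (n + m) * rho π ^ (-k)) atTop (𝓝 0) := by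
  have h := ((tendsto_pow_atTop_nhds_zero_of_lt_one (theta_nonneg π ϖ)
    (theta_lt_one hπ1 hϖ)).const_mul (theta π ϖ ^ n)).mul_const (rho π ^ (-k))
  rw [mul_zero, zero_mul] at h
  refine h.congr fun m => ?_
  rw [pow_add]

/-- the key induction: a coefficientwise limit of a sequence starting in `𝔪ⁿ` with increments in
`𝔪ⁿ⁺ᵐ` lies in `𝔪ⁿ` (`𝔪 = (ϖ, X, Y)`) -/
theorem mem_pow_of_isCoeffLimit (hπ : π ≠ 0) (hπ1 : ‖π‖ < 1) (ϖ : K) (hϖ : ‖ϖ‖ < 1) (n : ℕ) :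
    ∀ (s : ℕ → NodeInt π) (L : NodeInt π), IsCoeffLimit s L →
      s 0 ∈ mIdeal hπ hπ1 ϖ hϖ.le ^ n →
      (∀ m, s (m + 1) - s m ∈ mIdeal hπ hπ1 ϖ hϖ.le ^ (n + m)) →
      L ∈ mIdeal hπ hπ1 ϖ hϖ.le ^ n := by
  induction n with
  | zero =>
    intro s L _ _ _
    rw [pow_zero, Ideal.one_eq_top]
    trivial
  | succ n ih =>
    intro s L hL h0 hinc
    have hdec0 : ∃ t₀ ∈ mIdeal hπ hπ1 ϖ hϖ.le ^ n, ∃ t₁ ∈ mIdeal hπ hπ1 ϖ hϖ.le ^ n,
        ∃ t₂ ∈ mIdeal hπ hπ1 ϖ hϖ.le ^ n,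
        s 0 = cInt ϖ hϖ.le * t₀ + XInt hπ hπ1.le * t₁ + YInt hπ hπ1.le * t₂ := by
      apply exists_decomp
      rw [pow_succ'] at h0
      exact h0
    have hdec : ∀ m, ∃ e₀ ∈ mIdeal hπ hπ1 ϖ hϖ.le ^ (n + m),
        ∃ e₁ ∈ mIdeal hπ hπ1 ϖ hϖ.le ^ (n + m), ∃ e₂ ∈ mIdeal hπ hπ1 ϖ hϖ.le ^ (n + m),
        s (m + 1) - s m = cInt ϖ hϖ.le * e₀ + XInt hπ hπ1.le * e₁ + YInt hπ hπ1.le * e₂ := by
      intro m
      apply exists_decomp
      have h := hinc m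
      rw [show n + 1 + m = (n + m) + 1 by ring, pow_succ'] at h
      exact h
    obtain ⟨t₀, ht₀, t₁, ht₁, t₂, ht₂, hs0⟩ := hdec0
    choose e₀ he₀ e₁ he₁ e₂ he₂ hse using hdec
    -- the partial sums
    have hlim : ∀ (e : ℕ → NodeInt π) (t : NodeInt π),
        (∀ m, e m ∈ mIdeal hπ hπ1 ϖ hϖ.le ^ (n + m)) → t ∈ mIdeal hπ hπ1 ϖ hϖ.le ^ n →
        ∃ L', IsCoeffLimit (fun m => t + ∑ j ∈ Finset.range m, e j) L' ∧
          L' ∈ mIdeal hπ hπ1 ϖ hϖ.le ^ n := by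
      intro e t he ht
      have hinc' : ∀ m, (t + ∑ j ∈ Finset.range (m + 1), e j) - (t + ∑ j ∈ Finset.range m, e j)
          = e m := fun m => by rw [Finset.sum_range_succ]; ring
      obtain ⟨L', hL'⟩ := exists_isCoeffLimit hπ hπ1 (fun m => t + ∑ j ∈ Finset.range m, e j)
        (fun k => by
          have : ∀ m, cx k (t + ∑ j ∈ Finset.range (m + 1), e j)
              - cx k (t + ∑ j ∈ Finset.range m, e j) = cx k (e m) := fun m => by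
            rw [← cx_sub, hinc']
          simp only [this]
          rw [tendsto_zero_iff_norm_tendsto_zero]
          exact squeeze_zero (fun _ => norm_nonneg _)
            (fun m => norm_cx_le_of_mem_pow hπ hπ1 ϖ hϖ.le (he m) k)
            (tendsto_theta_pow hπ1 hϖ n k))
      refine ⟨L', hL', ih _ L' hL' ?_ fun m => ?_⟩
      · show t + ∑ j ∈ Finset.range 0, e j ∈ _
        rw [Finset.range_zero, Finset.sum_empty, add_zero]
        exact ht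
      · show (t + ∑ j ∈ Finset.range (m + 1), e j) - (t + ∑ j ∈ Finset.range m, e j) ∈ _
        rw [hinc']
        exact he m
    obtain ⟨L₀, hL₀, hL₀m⟩ := hlim e₀ t₀ he₀ ht₀
    obtain ⟨L₁, hL₁, hL₁m⟩ := hlim e₁ t₁ he₁ ht₁
    obtain ⟨L₂, hL₂, hL₂m⟩ := hlim e₂ t₂ he₂ ht₂
    have hsum : ∀ m, s m = cInt ϖ hϖ.le * (t₀ + ∑ j ∈ Finset.range m, e₀ j)
        + XInt hπ hπ1.le * (t₁ + ∑ j ∈ Finset.range m, e₁ j)
        + YInt hπ hπ1.le * (t₂ + ∑ j ∈ Finset.range m, e₂ j) := by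
      intro m
      induction m with
      | zero =>
        rw [Finset.range_zero, Finset.sum_empty, Finset.sum_empty, Finset.sum_empty, add_zero,
          add_zero, add_zero]
        exact hs0
      | succ m ihm =>
        have h := hse m
        rw [sub_eq_iff_eq_add] at h
        rw [h, ihm, Finset.sum_range_succ, Finset.sum_range_succ, Finset.sum_range_succ]
        ring
    have hL' : IsCoeffLimit s (cInt ϖ hϖ.le * L₀ + XInt hπ hπ1.le * L₁ + YInt hπ hπ1.le * L₂) := by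
      have h := ((hL₀.cInt_mul ϖ hϖ.le).add (hL₁.XInt_mul hπ hπ1.le)).add (hL₂.YInt_mul hπ hπ1.le)
      intro k
      refine (h k).congr fun m => ?_
      rw [hsum m]
    rw [hL.unique hπ hL', pow_succ']
    have hgen : ∀ x ∈ ({cInt ϖ hϖ.le, XInt hπ hπ1.le, YInt hπ hπ1.le} : Set (NodeInt π)),
        x ∈ mIdeal hπ hπ1 ϖ hϖ.le := fun x hx => Ideal.subset_span hx
    refine add_mem (add_mem (Ideal.mul_mem_mul (hgen _ ?_) hL₀m) (Ideal.mul_mem_mul (hgen _ ?_) hL₁m))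
      (Ideal.mul_mem_mul (hgen _ ?_) hL₂m)
    · exact Set.mem_insert _ _
    · exact Set.mem_insert_of_mem _ (Set.mem_insert _ _)
    · exact Set.mem_insert_of_mem _ (Set.mem_insert_of_mem _ rfl)

/-- **Completeness** of the integral node ring for the ideal `(ϖ, X, Y)`, in the elementary form
of `Expand.ExpData.complete`. -/
theorem complete (hπ : π ≠ 0) (hπ1 : ‖π‖ < 1) (ϖ : K) (hϖ : ‖ϖ‖ < 1) (f : ℕ → NodeInt π)
    (hf : ∀ n, f (n + 1) - f n ∈ mIdeal hπ hπ1 ϖ hϖ.le ^ n) :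
    ∃ L : NodeInt π, ∀ n, L - f n ∈ mIdeal hπ hπ1 ϖ hϖ.le ^ n := by
  obtain ⟨L, hL⟩ := exists_isCoeffLimit hπ hπ1 f (fun k => by
    simp only [← cx_sub]
    rw [tendsto_zero_iff_norm_tendsto_zero]
    refine squeeze_zero (fun _ => norm_nonneg _)
      (fun m => norm_cx_le_of_mem_pow hπ hπ1 ϖ hϖ.le (hf m) k) ?_
    have h := tendsto_theta_pow hπ1 hϖ 0 k
    simpa using h)
  refine ⟨L, fun n => ?_⟩
  refine mem_pow_of_isCoeffLimit hπ hπ1 ϖ hϖ n (fun m => f (m + n) - f n) (L - f n)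
    ((hL.shift n).sub_const (f n)) ?_ fun m => ?_
  · show f (0 + n) - f n ∈ _
    rw [zero_add, sub_self]
    exact Ideal.zero_mem _
  · show f (m + 1 + n) - f n - (f (m + n) - f n) ∈ _
    rw [sub_sub_sub_cancel_right, show m + 1 + n = (m + n) + 1 by ring, add_comm n m]
    exact hf (m + n)

/-- `complete` in the literal shape of `Expand.ExpData.complete` with coordinates `![X, Y]` -/
theorem complete' (hπ : π ≠ 0) (hπ1 : ‖π‖ < 1) (ϖ : K) (hϖ : ‖ϖ‖ < 1) (f : ℕ → NodeInt π)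
    (hf : ∀ n, f (n + 1) - f n ∈ Ideal.span (insert (cInt ϖ hϖ.le)
      (Set.range ![XInt hπ hπ1.le, YInt hπ hπ1.le])) ^ n) :
    ∃ L : NodeInt π, ∀ n, L - f n ∈ Ideal.span (insert (cInt ϖ hϖ.le)
      (Set.range ![XInt hπ hπ1.le, YInt hπ hπ1.le])) ^ n := by
  have e : insert (cInt ϖ hϖ.le) (Set.range ![XInt hπ hπ1.le, YInt hπ hπ1.le])
      = ({cInt ϖ hϖ.le, XInt hπ hπ1.le, YInt hπ hπ1.le} : Set (NodeInt π)) := by
    rw [Matrix.range_cons, Matrix.range_cons, Matrix.range_empty]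
    simp only [Set.union_empty, Set.union_singleton]
    rw [Set.pair_comm (YInt hπ hπ1.le) (XInt hπ hπ1.le)]
  rw [e] at hf ⊢
  exact complete hπ hπ1 ϖ hϖ f hf

/-! ### the `X`-expansions of the integral node ring (the shape used by `NodeEval`, helper5) -/

theorem norm_coeff_toX_natCast_le (g : NodeInt π) (n : ℕ) :
    ‖BAmice.coeff (n : ℤ) (toX (g : NodeB π))‖ ≤ 1 := norm_cx_le_one n g

theorem norm_coeff_toX_neg_le (hπ : π ≠ 0) (g : NodeInt π) (m : ℕ) :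
    ‖BAmice.coeff (-(m : ℤ)) (toX (g : NodeB π))‖ ≤ 1 * ‖π‖ ^ m := by
  have h := norm_cx_le_zpow hπ (-(m : ℤ)) g
  rw [neg_neg, zpow_natCast] at h
  rw [one_mul]
  exact h

/-- the decay condition with constant `1`, from the two one-sided bounds -/
theorem decay_of_bounds (hπ : π ≠ 0) (hπ1 : ‖π‖ ≤ 1) {c : BAmice K}
    (h1 : ∀ n : ℕ, ‖BAmice.coeff (n : ℤ) c‖ ≤ 1)
    (h2 : ∀ m : ℕ, ‖BAmice.coeff (-(m : ℤ)) c‖ ≤ 1 * ‖π‖ ^ m) (n : ℤ) :
    ‖BAmice.coeff n c‖ ≤ 1 * ‖π‖ ^ (-n) := by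
  rcases le_or_gt 0 n with hn | hn
  · obtain ⟨m, rfl⟩ := Int.eq_ofNat_of_zero_le hn
    rw [one_mul]
    exact (h1 m).trans (one_le_zpow_of_nonpos₀ (norm_pos_iff.2 hπ) hπ1 (by omega))
  · obtain ⟨m, rfl⟩ : ∃ m : ℕ, n = -(m : ℤ) := ⟨(-n).toNat, by omega⟩
    rw [neg_neg, zpow_natCast]
    exact h2 m

theorem norm_le_one_of_bounds (hπ1 : ‖π‖ ≤ 1) {c : BAmice K}
    (h1 : ∀ n : ℕ, ‖BAmice.coeff (n : ℤ) c‖ ≤ 1)
    (h2 : ∀ m : ℕ, ‖BAmice.coeff (-(m : ℤ)) c‖ ≤ 1 * ‖π‖ ^ m) : ‖c‖ ≤ 1 := by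
  refine BAmice.norm_le_iff.2 fun n => ?_
  rcases le_or_gt 0 n with hn | hn
  · obtain ⟨m, rfl⟩ := Int.eq_ofNat_of_zero_le hn
    exact h1 m
  · obtain ⟨m, rfl⟩ : ∃ m : ℕ, n = -(m : ℤ) := ⟨(-n).toNat, by omega⟩
    refine (h2 m).trans ?_
    rw [one_mul]
    exact pow_le_one₀ (norm_nonneg _) hπ1

/-- the element of the integral node ring with a given `X`-expansion -/
def ofXInt (hπ : π ≠ 0) (hπ1 : ‖π‖ < 1) (c : BAmice K)
    (h1 : ∀ n : ℕ, ‖BAmice.coeff (n : ℤ) c‖ ≤ 1)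
    (h2 : ∀ m : ℕ, ‖BAmice.coeff (-(m : ℤ)) c‖ ≤ 1 * ‖π‖ ^ m) : NodeInt π :=
  ⟨ofX hπ hπ1 c 1 (decay_of_bounds hπ hπ1.le h1 h2), mem_nodeInt_iff.2
    ⟨by rw [toX_ofX]; exact norm_le_one_of_bounds hπ1.le h1 h2, norm_toY_ofX_le hπ hπ1 c 1 _⟩⟩

@[simp] theorem toX_ofXInt (hπ : π ≠ 0) (hπ1 : ‖π‖ < 1) (c : BAmice K)
    (h1 : ∀ n : ℕ, ‖BAmice.coeff (n : ℤ) c‖ ≤ 1)
    (h2 : ∀ m : ℕ, ‖BAmice.coeff (-(m : ℤ)) c‖ ≤ 1 * ‖π‖ ^ m) :
    toX ((ofXInt hπ hπ1 c h1 h2 : NodeInt π) : NodeB π) = c := rfl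

@[simp] theorem cx_ofXInt (hπ : π ≠ 0) (hπ1 : ‖π‖ < 1) (c : BAmice K)
    (h1 : ∀ n : ℕ, ‖BAmice.coeff (n : ℤ) c‖ ≤ 1)
    (h2 : ∀ m : ℕ, ‖BAmice.coeff (-(m : ℤ)) c‖ ≤ 1 * ‖π‖ ^ m) (k : ℤ) :
    cx k (ofXInt hπ hπ1 c h1 h2) = BAmice.coeff k c := rfl

/-- the `X`-expansions of the integral node ring are exactly the series with `‖cₙ‖ ≤ 1` (`n ≥ 0`)
and `‖c₋ₘ‖ ≤ ‖π‖ᵐ` -/
theorem exists_toX_eq (hπ : π ≠ 0) (hπ1 : ‖π‖ < 1) (c : BAmice K)
    (h1 : ∀ n : ℕ, ‖BAmice.coeff (n : ℤ) c‖ ≤ 1)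
    (h2 : ∀ m : ℕ, ‖BAmice.coeff (-(m : ℤ)) c‖ ≤ 1 * ‖π‖ ^ m) :
    ∃ b : NodeInt π, toX (b : NodeB π) = c := ⟨ofXInt hπ hπ1 c h1 h2, rfl⟩

/-- the ring homomorphism `toX` on the integral node ring -/
def toXInt (π : K) : NodeInt π →+* BAmice K := (toX : NodeB π →ₐ[K] BAmice K).toRingHom.comp (nodeInt π).subtype

@[simp] theorem toXInt_apply (g : NodeInt π) : toXInt π g = toX (g : NodeB π) := rfl

theorem toXInt_injective (hπ : π ≠ 0) : Function.Injective (toXInt π) := fun _ _ e =>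
  Subtype.ext (toX_injective hπ e)

/-- the symmetry `X ↔ Y` of the integral node ring -/
def swapInt (π : K) : NodeInt π ≃+* NodeInt π where
  toFun g := ⟨swap π g, by rw [mem_nodeInt, norm_swap]; exact g.2⟩
  invFun g := ⟨swap π g, by rw [mem_nodeInt, norm_swap]; exact g.2⟩
  left_inv _ := rfl
  right_inv _ := rfl
  map_mul' _ _ := Subtype.ext (map_mul (swap π) _ _)
  map_add' _ _ := Subtype.ext (map_add (swap π) _ _)

@[simp] theorem coe_swapInt (g : NodeInt π) : ((swapInt π g : NodeInt π) : NodeB π) = swap π g := rfl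

theorem swapInt_XInt (hπ : π ≠ 0) (hπ1 : ‖π‖ ≤ 1) : swapInt π (XInt hπ hπ1) = YInt hπ hπ1 :=
  Subtype.ext (swap_X hπ)

theorem swapInt_YInt (hπ : π ≠ 0) (hπ1 : ‖π‖ ≤ 1) : swapInt π (YInt hπ hπ1) = XInt hπ hπ1 :=
  Subtype.ext (swap_Y hπ)

theorem swapInt_cInt (a : K) (ha : ‖a‖ ≤ 1) : swapInt π (cInt a ha) = cInt a ha :=
  Subtype.ext ((swap π).commutes a)

end Fermat.Agent.FF3.NodeRing

end
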