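import Mathlib
import Fermat.Agent.FF3.NodeRing.Int
import Fermat.Agent.FF3.AmiceU.Disc

/-!
# FF3 / NodeRing : the two vertical primes of the integral node ring (§2c, (RED)/(AM))

`K` discretely normed (`AmiceU.IsDiscreteNorm ϖ`, helper11).  The ideal `(ϖ, Y)` of
`NodeInt π = W[[X,Y]]/(XY - π)` is the set of the elements whose `X`-expansion has Gauss norm `< 1`
(`span_unif_Y_eq`), it is prime (`isPrime_span_unif_Y`, multiplicativity of the Gauss norm of the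
Amice ring) and does not contain `X`; symmetrically for `(ϖ, X)` and the `Y`-expansion.
-/

set_option autoImplicit false
set_option linter.unusedSectionVars false

noncomputable section

namespace Fermat.Agent.FF3.NodeRing

open Filter Topology
open Fermat.Agent.FF3.Amice Fermat.Agent.FF3.AmiceU

variable {K : Type*} [NormedField K] [IsUltrametricDist K] [CompleteSpace K] {π : K}

/-- the elements whose `X`-expansion is small (the vertical prime `(ϖ, Y)`) -/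
def idealX (π : K) : Ideal (NodeInt π) where
  carrier := {g | ‖toX (g : NodeB π)‖ < 1}
  add_mem' := fun {a b} (ha : ‖toX (a : NodeB π)‖ < 1) (hb : ‖toX (b : NodeB π)‖ < 1) => by
    show ‖toX ((a : NodeB π) + (b : NodeB π))‖ < 1
    rw [map_add]
    exact (IsUltrametricDist.norm_add_le_max _ _).trans_lt (max_lt ha hb)
  zero_mem' := by
    show ‖toX ((0 : NodeB π))‖ < 1
    rw [map_zero, norm_zero]
    exact one_pos
  smul_mem' := fun h g (hg : ‖toX (g : NodeB π)‖ < 1) => by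
    show ‖toX ((h : NodeB π) * (g : NodeB π))‖ < 1
    rw [map_mul]
    refine (norm_mul_le _ _).trans_lt ?_
    calc ‖toX (h : NodeB π)‖ * ‖toX (g : NodeB π)‖ ≤ 1 * ‖toX (g : NodeB π)‖ :=
          mul_le_mul_of_nonneg_right (norm_toX_le_one h) (norm_nonneg _)
      _ < 1 := by rw [one_mul]; exact hg

theorem mem_idealX {g : NodeInt π} : g ∈ idealX π ↔ ‖toX (g : NodeB π)‖ < 1 := Iff.rfl

/-- the elements whose `Y`-expansion is small (the vertical prime `(ϖ, X)`) -/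
def idealY (π : K) : Ideal (NodeInt π) := (idealX π).comap (swapInt π : NodeInt π →+* NodeInt π)

theorem mem_idealY {g : NodeInt π} : g ∈ idealY π ↔ ‖toY (g : NodeB π)‖ < 1 := Iff.rfl

theorem norm_coe_X : ‖((BAmice.X : (BAmice K)ˣ) : BAmice K)‖ = 1 := by
  rw [BAmice.coe_X]
  refine le_antisymm (BAmice.norm_le_iff.2 fun n => ?_) ?_
  · rw [BAmice.coeff_single]; split_ifs <;> simp
  · have := BAmice.norm_coeff_le 1 (BAmice.single 1 (1 : K))
    rwa [BAmice.coeff_single_self, norm_one] at this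

theorem XInt_notMem_idealX (hπ : π ≠ 0) (hπ1 : ‖π‖ ≤ 1) : XInt hπ hπ1 ∉ idealX π := by
  rw [mem_idealX, coe_XInt, toX_X, norm_coe_X]
  exact lt_irrefl 1

theorem YInt_notMem_idealY (hπ : π ≠ 0) (hπ1 : ‖π‖ ≤ 1) : YInt hπ hπ1 ∉ idealY π := by
  rw [mem_idealY, coe_YInt, toY_Y, norm_coe_X]
  exact lt_irrefl 1

theorem cInt_mem_idealX {a : K} (ha : ‖a‖ < 1) : (cInt a ha.le : NodeInt π) ∈ idealX π := by
  rw [mem_idealX, coe_cInt, AlgHom.commutes, norm_algebraMap']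
  exact ha

theorem cInt_mem_idealY {a : K} (ha : ‖a‖ < 1) : (cInt a ha.le : NodeInt π) ∈ idealY π := by
  rw [mem_idealY, coe_cInt, AlgHom.commutes, norm_algebraMap']
  exact ha

theorem YInt_mem_idealX (hπ : π ≠ 0) (hπ1 : ‖π‖ < 1) : YInt hπ hπ1.le ∈ idealX π := by
  rw [mem_idealX, coe_YInt, Y, toX_monomial]
  refine lt_of_le_of_lt (BAmice.norm_le_iff.2 fun n => ?_) hπ1
  rw [BAmice.coeff_single]
  split_ifs
  · exact le_rfl
  · rw [norm_zero]; exact norm_nonneg _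

theorem XInt_mem_idealY (hπ : π ≠ 0) (hπ1 : ‖π‖ < 1) : XInt hπ hπ1.le ∈ idealY π := by
  show swapInt π (XInt hπ hπ1.le) ∈ idealX π
  rw [swapInt_XInt]
  exact YInt_mem_idealX hπ hπ1

/-! ### the discrete case -/

theorem norm_le_unif_of_lt_one {ϖ : K} (hϖ : IsDiscreteNorm ϖ) {a : K} (ha : ‖a‖ < 1) :
    ‖a‖ ≤ ‖ϖ‖ := by
  obtain ⟨h0, h1, hd⟩ := hϖ
  by_cases ha0 : a = 0
  · rw [ha0, norm_zero]; exact h0.le
  obtain ⟨m, hm⟩ := hd a ha0
  rw [hm] at ha ⊢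
  have hm1 : 1 ≤ m := by
    by_contra hlt
    have : (1 : ℝ) ≤ ‖ϖ‖ ^ m := one_le_zpow_of_nonpos₀ h0 h1.le (by omega)
    exact absurd ha (not_lt.2 this)
  calc ‖ϖ‖ ^ m ≤ ‖ϖ‖ ^ (1 : ℤ) := zpow_le_zpow_right_of_le_one₀ h0 h1.le hm1
    _ = ‖ϖ‖ := zpow_one _

theorem isPrime_idealX {ϖ : K} (hϖ : IsDiscreteNorm ϖ) : (idealX π).IsPrime := by
  refine ⟨?_, ?_⟩
  · intro h
    have h1 : (1 : NodeInt π) ∈ idealX π := h ▸ Submodule.mem_top
    rw [mem_idealX] at h1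
    have : toX ((1 : NodeInt π) : NodeB π) = 1 := map_one _
    rw [this, norm_one] at h1
    exact lt_irrefl 1 h1
  · intro g h hgh
    rw [mem_idealX] at hgh
    have e : toX ((g * h : NodeInt π) : NodeB π) = toX (g : NodeB π) * toX (h : NodeB π) :=
      map_mul _ _ _
    rw [e, norm_mul_of_discrete hϖ] at hgh
    by_contra hno
    rw [not_or, mem_idealX, mem_idealX, not_lt, not_lt] at hno
    have : (1 : ℝ) ≤ ‖toX (g : NodeB π)‖ * ‖toX (h : NodeB π)‖ := by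
      calc (1 : ℝ) = 1 * 1 := (one_mul 1).symm
        _ ≤ ‖toX (g : NodeB π)‖ * ‖toX (h : NodeB π)‖ :=
          mul_le_mul hno.1 hno.2 zero_le_one (norm_nonneg _)
    exact absurd hgh (not_lt.2 this)

theorem isPrime_idealY {ϖ : K} (hϖ : IsDiscreteNorm ϖ) : (idealY π).IsPrime :=
  haveI := isPrime_idealX (π := π) hϖ
  Ideal.comap_isPrime _ _

/-- **(AM)/(RED)** the ideal `(ϖ, Y)` consists of the elements whose `X`-expansion is small -/
theorem span_unif_Y_eq {ϖ : K} (hϖ : IsDiscreteNorm ϖ) (hπ : π ≠ 0) (hπ1 : ‖π‖ < 1) :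
    Ideal.span {cInt ϖ hϖ.2.1.le, YInt hπ hπ1.le} = idealX π := by
  have hϖ0 : ϖ ≠ 0 := norm_pos_iff.1 hϖ.1
  refine le_antisymm (Ideal.span_le.2 ?_) fun g hg => ?_
  · rintro x (rfl | rfl)
    · exact cInt_mem_idealX hϖ.2.1
    · exact YInt_mem_idealX hπ hπ1
  · rw [mem_idealX] at hg
    have hk : ∀ k, ‖cx k g‖ ≤ ‖ϖ‖ := fun k =>
      norm_le_unif_of_lt_one hϖ ((BAmice.norm_coeff_le k _).trans_lt hg)
    -- the part with nonnegative exponents, divided by `ϖ`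
    set c₁ : BAmice K := ϖ⁻¹ • trunc (fun n => 0 ≤ n) (toX (g : NodeB π)) with hc₁
    have hc₁k : ∀ k, BAmice.coeff k c₁ = ϖ⁻¹ * (if 0 ≤ k then cx k g else 0) := fun k => by
      rw [hc₁, BAmice.coeff_smul, coeff_trunc]
      by_cases h : 0 ≤ k
      · rw [if_pos h, if_pos h]; rfl
      · rw [if_neg h, if_neg h]
    have h11 : ∀ n : ℕ, ‖BAmice.coeff (n : ℤ) c₁‖ ≤ 1 := fun n => by
      rw [hc₁k, if_pos (Int.natCast_nonneg n), norm_mul, norm_inv, inv_mul_le_iff₀ hϖ.1, mul_one]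
      exact hk n
    have h12 : ∀ m : ℕ, ‖BAmice.coeff (-(m : ℤ)) c₁‖ ≤ 1 * ‖π‖ ^ m := fun m => by
      rcases Nat.eq_zero_or_pos m with rfl | hm
      · simpa using h11 0
      · rw [hc₁k, if_neg (by omega), mul_zero, norm_zero, one_mul]
        exact pow_nonneg (norm_nonneg _) _
    -- the part with negative exponents, divided by `Y`
    set c₂ : BAmice K := π⁻¹ • (((BAmice.X : (BAmice K)ˣ) : BAmice K)
      * trunc (fun n => n < 0) (toX (g : NodeB π))) with hc₂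
    have hc₂k : ∀ k, BAmice.coeff k c₂ = π⁻¹ * (if k - 1 < 0 then cx (k - 1) g else 0) :=
      fun k => by
        rw [hc₂, BAmice.coeff_smul, BAmice.coe_X, BAmice.coeff_single_mul, one_mul, coeff_trunc]
        by_cases h : k - 1 < 0
        · rw [if_pos h, if_pos h]; rfl
        · rw [if_neg h, if_neg h]
    have hπpos : 0 < ‖π‖ := norm_pos_iff.2 hπ
    have h21 : ∀ n : ℕ, ‖BAmice.coeff (n : ℤ) c₂‖ ≤ 1 := fun n => by
      rw [hc₂k]
      split_ifs with h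
      · have hn : (n : ℤ) - 1 = -1 := by omega
        rw [hn, norm_mul, norm_inv, inv_mul_le_iff₀ hπpos, mul_one]
        have := norm_cx_le_zpow hπ (-1) g
        simpa using this
      · rw [mul_zero, norm_zero]; exact zero_le_one
    have h22 : ∀ m : ℕ, ‖BAmice.coeff (-(m : ℤ)) c₂‖ ≤ 1 * ‖π‖ ^ m := fun m => by
      rw [hc₂k, if_pos (by omega), norm_mul, norm_inv, inv_mul_le_iff₀ hπpos, one_mul]
      have := norm_cx_le_zpow hπ (-(m : ℤ) - 1) g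
      have e : -(-(m : ℤ) - 1) = ((m + 1 : ℕ) : ℤ) := by push_cast; ring
      rw [e, zpow_natCast, pow_succ'] at this
      exact this
    rw [Ideal.mem_span_pair]
    refine ⟨ofXInt hπ hπ1 c₁ h11 h12, ofXInt hπ hπ1 c₂ h21 h22, ext_cx hπ fun k => ?_⟩
    rw [cx_add, mul_comm (ofXInt hπ hπ1 c₁ h11 h12), cx_cInt_mul,
      mul_comm (ofXInt hπ hπ1 c₂ h21 h22), cx_YInt_mul, cx_ofXInt, cx_ofXInt, hc₁k, hc₂k,
      add_sub_cancel_right, mul_inv_cancel_left₀ hϖ0, mul_inv_cancel_left₀ hπ]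
    by_cases h : 0 ≤ k
    · rw [if_pos h, if_neg (not_lt.2 h), add_zero]
    · rw [if_neg h, if_pos (not_le.1 h), zero_add]

/-- the ideal `(ϖ, X)` consists of the elements whose `Y`-expansion is small -/
theorem span_unif_X_eq {ϖ : K} (hϖ : IsDiscreteNorm ϖ) (hπ : π ≠ 0) (hπ1 : ‖π‖ < 1) :
    Ideal.span {cInt ϖ hϖ.2.1.le, XInt hπ hπ1.le} = idealY π := by
  ext g
  show g ∈ _ ↔ swapInt π g ∈ idealX π
  rw [← span_unif_Y_eq hϖ hπ hπ1, Ideal.mem_span_pair, Ideal.mem_span_pair]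
  constructor
  · rintro ⟨a, b, rfl⟩
    refine ⟨swapInt π a, swapInt π b, ?_⟩
    rw [map_add, map_mul, map_mul, swapInt_cInt, swapInt_XInt]
  · rintro ⟨a, b, h⟩
    refine ⟨swapInt π a, swapInt π b, ?_⟩
    have := congrArg (swapInt π) h
    rw [map_add, map_mul, map_mul, swapInt_cInt, swapInt_YInt] at this
    rw [this]
    exact Subtype.ext (swap_swap _)

/-- **(RED)** `(ϖ, Y)` is prime -/
theorem isPrime_span_unif_Y {ϖ : K} (hϖ : IsDiscreteNorm ϖ) (hπ : π ≠ 0) (hπ1 : ‖π‖ < 1) :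
    (Ideal.span {cInt ϖ hϖ.2.1.le, YInt hπ hπ1.le} : Ideal (NodeInt π)).IsPrime := by
  rw [span_unif_Y_eq hϖ hπ hπ1]
  exact isPrime_idealX hϖ

/-- **(RED)** `(ϖ, X)` is prime -/
theorem isPrime_span_unif_X {ϖ : K} (hϖ : IsDiscreteNorm ϖ) (hπ : π ≠ 0) (hπ1 : ‖π‖ < 1) :
    (Ideal.span {cInt ϖ hϖ.2.1.le, XInt hπ hπ1.le} : Ideal (NodeInt π)).IsPrime := by
  rw [span_unif_X_eq hϖ hπ hπ1]
  exact isPrime_idealY hϖ

theorem XInt_notMem_span_unif_Y {ϖ : K} (hϖ : IsDiscreteNorm ϖ) (hπ : π ≠ 0) (hπ1 : ‖π‖ < 1) :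
    XInt hπ hπ1.le ∉ (Ideal.span {cInt ϖ hϖ.2.1.le, YInt hπ hπ1.le} : Ideal (NodeInt π)) := by
  rw [span_unif_Y_eq hϖ hπ hπ1]
  exact XInt_notMem_idealX hπ hπ1.le

theorem YInt_notMem_span_unif_X {ϖ : K} (hϖ : IsDiscreteNorm ϖ) (hπ : π ≠ 0) (hπ1 : ‖π‖ < 1) :
    YInt hπ hπ1.le ∉ (Ideal.span {cInt ϖ hϖ.2.1.le, XInt hπ hπ1.le} : Ideal (NodeInt π)) := by
  rw [span_unif_X_eq hϖ hπ hπ1]
  exact YInt_notMem_idealY hπ hπ1.le

/-- **(AM)** `toX g ∈ ϖ · (unit ball of the Amice ring)` iff `g ∈ (ϖ, Y)` -/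
theorem mem_span_unif_Y_iff {ϖ : K} (hϖ : IsDiscreteNorm ϖ) (hπ : π ≠ 0) (hπ1 : ‖π‖ < 1)
    {g : NodeInt π} :
    g ∈ (Ideal.span {cInt ϖ hϖ.2.1.le, YInt hπ hπ1.le} : Ideal (NodeInt π))
      ↔ ‖toX (g : NodeB π)‖ ≤ ‖ϖ‖ := by
  rw [span_unif_Y_eq hϖ hπ hπ1, mem_idealX]
  refine ⟨fun h => BAmice.norm_le_iff.2 fun k =>
    norm_le_unif_of_lt_one hϖ ((BAmice.norm_coeff_le k _).trans_lt h), fun h => h.trans_lt hϖ.2.1⟩

theorem mem_span_unif_X_iff {ϖ : K} (hϖ : IsDiscreteNorm ϖ) (hπ : π ≠ 0) (hπ1 : ‖π‖ < 1)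
    {g : NodeInt π} :
    g ∈ (Ideal.span {cInt ϖ hϖ.2.1.le, XInt hπ hπ1.le} : Ideal (NodeInt π))
      ↔ ‖toY (g : NodeB π)‖ ≤ ‖ϖ‖ := by
  rw [span_unif_X_eq hϖ hπ hπ1, mem_idealY]
  refine ⟨fun h => BAmice.norm_le_iff.2 fun k =>
    norm_le_unif_of_lt_one hϖ ((BAmice.norm_coeff_le k _).trans_lt h), fun h => h.trans_lt hϖ.2.1⟩

end Fermat.Agent.FF3.NodeRing

end
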