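import Mathlib
import Fermat.Agent.FF3.NodeRing.Red

/-!
# FF3 / NodeRing : the integral node ring is local (§2c, (LOC))

No discreteness except where stated (`hπ : π ≠ 0`, `hπ1 : ‖π‖ < 1`).

* `shiftPos g`, `shiftNeg g`, `eq_cInt_add` : `g = g₀ + X g₊ + Y g₋` (`g₀ = cx 0 g`);
  `sub_cInt_cx_zero_mem` : `g - g₀ ∈ (X, Y)`.
* `norm_cx_zero_mul_sub_le` : the constant term is multiplicative modulo `π`.
* `eq_zero_of_forall_mem_pow` : `⋂ₙ (ϖ, X, Y)ⁿ = 0`.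
* `isUnit_iff_norm_cx_zero` : `g` is a unit iff `‖cx 0 g‖ = 1`; `norm_cx_zero_of_isUnit`;
  `isLocalRing`, `mem_maximalIdeal_iff`, `maximalIdeal_eq_span` (discrete case: `(ϖ, X, Y)`).
* `sub_XInt_mul_notMem_idealX`, `sub_YInt_mul_notMem_idealY` : the clause `unit` of `B4.SideHyp`.
-/

set_option autoImplicit false
set_option linter.unusedSectionVars false

noncomputable section

namespace Fermat.Agent.FF3.NodeRing

open Filter Topology
open Fermat.Agent.FF3.Amice Fermat.Agent.FF3.AmiceU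

variable {K : Type*} [NormedField K] [IsUltrametricDist K] [CompleteSpace K] {π : K}

theorem cx_cInt (k : ℤ) (a : K) (ha : ‖a‖ ≤ 1) :
    cx k (cInt a ha : NodeInt π) = if k = 0 then a else 0 := by
  unfold cx
  rw [coe_cInt, AlgHom.commutes, BAmice.coeff_algebraMap]

theorem cx_one (k : ℤ) : cx k (1 : NodeInt π) = if k = 0 then 1 else 0 := by
  rw [← cInt_one, cx_cInt]

theorem cx_neg (k : ℤ) (g : NodeInt π) : cx k (-g) = -cx k g := by
  have h := cx_sub k 0 g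
  rwa [zero_sub, cx_zero, zero_sub] at h

theorem norm_cx_le_of_neg (hπ : π ≠ 0) (hπ1 : ‖π‖ ≤ 1) {k : ℤ} (hk : k < 0) (g : NodeInt π) :
    ‖cx k g‖ ≤ ‖π‖ := by
  refine (norm_cx_le_zpow hπ k g).trans ?_
  calc ‖π‖ ^ (-k) ≤ ‖π‖ ^ (1 : ℤ) :=
        zpow_le_zpow_right_of_le_one₀ (norm_pos_iff.2 hπ) hπ1 (by omega)
    _ = ‖π‖ := zpow_one _

/-! ### the decomposition `g = g₀ + X g₊ + Y g₋` -/

/-- the series `∑_{k ≥ 0} g_{k+1} Xᵏ` -/
def shiftPosSeries (g : NodeInt π) : BAmice K :=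
  BAmice.single (-1) 1 * trunc (fun n => 0 < n) (toX (g : NodeB π))

theorem coeff_shiftPosSeries (g : NodeInt π) (k : ℤ) :
    BAmice.coeff k (shiftPosSeries g) = if 0 ≤ k then cx (k + 1) g else 0 := by
  unfold shiftPosSeries
  rw [BAmice.coeff_single_mul, one_mul, coeff_trunc, sub_neg_eq_add]
  by_cases h : 0 ≤ k
  · rw [if_pos h, if_pos (by omega)]; rfl
  · rw [if_neg h, if_neg (by omega)]

/-- `g₊` with `g = g₀ + X g₊ + Y g₋` -/
def shiftPos (hπ : π ≠ 0) (hπ1 : ‖π‖ < 1) (g : NodeInt π) : NodeInt π :=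
  ofXInt hπ hπ1 (shiftPosSeries g)
    (fun n => by
      rw [coeff_shiftPosSeries, if_pos (Int.natCast_nonneg n)]
      exact norm_cx_le_one _ g)
    (fun m => by
      rw [coeff_shiftPosSeries]
      rcases Nat.eq_zero_or_pos m with rfl | hm
      · rw [if_pos (by simp), pow_zero, mul_one]
        exact norm_cx_le_one _ g
      · rw [if_neg (by omega), norm_zero, one_mul]
        exact pow_nonneg (norm_nonneg _) _)

theorem cx_shiftPos (hπ : π ≠ 0) (hπ1 : ‖π‖ < 1) (g : NodeInt π) (k : ℤ) :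
    cx k (shiftPos hπ hπ1 g) = if 0 ≤ k then cx (k + 1) g else 0 := by
  unfold shiftPos
  rw [cx_ofXInt, coeff_shiftPosSeries]

/-- the series `∑_{k ≤ 0} π⁻¹ g_{k-1} Xᵏ` -/
def shiftNegSeries (π : K) (g : NodeInt π) : BAmice K :=
  π⁻¹ • (BAmice.single 1 1 * trunc (fun n => n < 0) (toX (g : NodeB π)))

theorem coeff_shiftNegSeries (g : NodeInt π) (k : ℤ) :
    BAmice.coeff k (shiftNegSeries π g) = if k ≤ 0 then π⁻¹ * cx (k - 1) g else 0 := by
  unfold shiftNegSeries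
  rw [BAmice.coeff_smul, BAmice.coeff_single_mul, one_mul, coeff_trunc]
  by_cases h : k ≤ 0
  · rw [if_pos h, if_pos (by omega)]; rfl
  · rw [if_neg h, if_neg (by omega), mul_zero]

/-- `g₋` with `g = g₀ + X g₊ + Y g₋` -/
def shiftNeg (hπ : π ≠ 0) (hπ1 : ‖π‖ < 1) (g : NodeInt π) : NodeInt π :=
  ofXInt hπ hπ1 (shiftNegSeries π g)
    (fun n => by
      have hπpos : 0 < ‖π‖ := norm_pos_iff.2 hπ
      rw [coeff_shiftNegSeries]
      split_ifs with h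
      · have hn : (n : ℤ) - 1 = -1 := by omega
        rw [hn, norm_mul, norm_inv, inv_mul_le_iff₀ hπpos, mul_one]
        exact norm_cx_le_of_neg hπ hπ1.le (by omega) g
      · rw [norm_zero]; exact zero_le_one)
    (fun m => by
      have hπpos : 0 < ‖π‖ := norm_pos_iff.2 hπ
      rw [coeff_shiftNegSeries, if_pos (by omega), norm_mul, norm_inv, inv_mul_le_iff₀ hπpos,
        one_mul]
      have := norm_cx_le_zpow hπ (-(m : ℤ) - 1) g
      have e : -(-(m : ℤ) - 1) = ((m + 1 : ℕ) : ℤ) := by push_cast; ring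
      rw [e, zpow_natCast, pow_succ'] at this
      exact this)

theorem cx_shiftNeg (hπ : π ≠ 0) (hπ1 : ‖π‖ < 1) (g : NodeInt π) (k : ℤ) :
    cx k (shiftNeg hπ hπ1 g) = if k ≤ 0 then π⁻¹ * cx (k - 1) g else 0 := by
  unfold shiftNeg
  rw [cx_ofXInt, coeff_shiftNegSeries]

/-- **the decomposition** `g = g₀ + X g₊ + Y g₋` -/
theorem eq_cInt_add (hπ : π ≠ 0) (hπ1 : ‖π‖ < 1) (g : NodeInt π) :
    g = cInt (cx 0 g) (norm_cx_le_one 0 g) + XInt hπ hπ1.le * shiftPos hπ hπ1 g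
      + YInt hπ hπ1.le * shiftNeg hπ hπ1 g := by
  refine ext_cx hπ fun k => ?_
  rw [cx_add, cx_add, cx_cInt, cx_XInt_mul, cx_YInt_mul, cx_shiftPos, cx_shiftNeg]
  rcases lt_trichotomy k 0 with hk | hk | hk
  · rw [if_neg hk.ne, if_neg (by omega), if_pos (by omega), add_sub_cancel_right,
      mul_inv_cancel_left₀ hπ, zero_add, zero_add]
  · subst hk
    rw [if_pos rfl, if_neg (by omega), if_neg (by omega), mul_zero, add_zero, add_zero]
  · rw [if_neg hk.ne', if_pos (by omega), if_neg (by omega), sub_add_cancel, mul_zero, zero_add,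
      add_zero]

/-- **(L1)** `g - g₀ ∈ (X, Y)` -/
theorem sub_cInt_cx_zero_mem (hπ : π ≠ 0) (hπ1 : ‖π‖ < 1) (g : NodeInt π) :
    g - cInt (cx 0 g) (norm_cx_le_one 0 g) ∈
      (Ideal.span {XInt hπ hπ1.le, YInt hπ hπ1.le} : Ideal (NodeInt π)) := by
  rw [Ideal.mem_span_pair]
  refine ⟨shiftPos hπ hπ1 g, shiftNeg hπ hπ1 g, ?_⟩
  have e := eq_cInt_add hπ hπ1 g
  linear_combination (-1 : NodeInt π) * e

/-! ### the constant term is multiplicative modulo `π` -/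

theorem norm_cx_zero_mul_sub_le (hπ : π ≠ 0) (hπ1 : ‖π‖ ≤ 1) (g h : NodeInt π) :
    ‖cx 0 (g * h) - cx 0 g * cx 0 h‖ ≤ ‖π‖ := by
  have hs : Summable fun i : ℤ => BAmice.coeff i (toX (g : NodeB π))
      * BAmice.coeff (0 - i) (toX (h : NodeB π)) := BAmice.summable_coeff_mul 0 _ _
  have e : cx 0 (g * h) = ∑' i : ℤ, BAmice.coeff i (toX (g : NodeB π))
      * BAmice.coeff (0 - i) (toX (h : NodeB π)) := by
    unfold cx
    rw [Subring.coe_mul, map_mul, BAmice.coeff_mul]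
  rw [e, hs.tsum_eq_add_tsum_ite 0]
  have e0 : BAmice.coeff 0 (toX (g : NodeB π)) * BAmice.coeff (0 - 0) (toX (h : NodeB π))
      = cx 0 g * cx 0 h := by rw [sub_zero]; rfl
  rw [e0, add_sub_cancel_left]
  refine IsUltrametricDist.norm_tsum_le_of_forall_le_of_nonneg (norm_nonneg _) fun i => ?_
  split_ifs with hi
  · rw [norm_zero]; exact norm_nonneg _
  · rw [norm_mul]
    rcases lt_or_gt_of_ne hi with hneg | hpos
    · calc ‖BAmice.coeff i (toX (g : NodeB π))‖ * ‖BAmice.coeff (0 - i) (toX (h : NodeB π))‖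
          ≤ ‖π‖ * 1 := mul_le_mul (norm_cx_le_of_neg hπ hπ1 hneg g) (norm_cx_le_one _ h)
            (norm_nonneg _) (norm_nonneg _)
        _ = ‖π‖ := mul_one _
    · calc ‖BAmice.coeff i (toX (g : NodeB π))‖ * ‖BAmice.coeff (0 - i) (toX (h : NodeB π))‖
          ≤ 1 * ‖π‖ := mul_le_mul (norm_cx_le_one _ g)
            (norm_cx_le_of_neg hπ hπ1 (by omega) h) (norm_nonneg _) zero_le_one
        _ = ‖π‖ := one_mul _

/-- **(L2)** the constant term of a unit has norm one -/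
theorem norm_cx_zero_of_isUnit (hπ : π ≠ 0) (hπ1 : ‖π‖ < 1) {g : NodeInt π} (hg : IsUnit g) :
    ‖cx 0 g‖ = 1 := by
  obtain ⟨h, hgh⟩ := hg.exists_right_inv
  have h1 := norm_cx_zero_mul_sub_le hπ hπ1.le g h
  rw [hgh, cx_one, if_pos rfl] at h1
  have h2 : (1 : ℝ) ≤ ‖cx 0 g * cx 0 h‖ := by
    by_contra hlt
    rw [not_le] at hlt
    have : ‖(1 : K)‖ ≤ max ‖(1 : K) - cx 0 g * cx 0 h‖ ‖cx 0 g * cx 0 h‖ := by
      have := IsUltrametricDist.norm_add_le_max ((1 : K) - cx 0 g * cx 0 h) (cx 0 g * cx 0 h)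
      rwa [sub_add_cancel] at this
    rw [norm_one] at this
    exact absurd this (not_le.2 (max_lt (h1.trans_lt hπ1) hlt))
  rw [norm_mul] at h2
  refine le_antisymm (norm_cx_le_one 0 g) ?_
  by_contra hlt
  rw [not_le] at hlt
  have : ‖cx 0 g‖ * ‖cx 0 h‖ < 1 := by
    calc ‖cx 0 g‖ * ‖cx 0 h‖ ≤ ‖cx 0 g‖ * 1 :=
          mul_le_mul_of_nonneg_left (norm_cx_le_one 0 h) (norm_nonneg _)
      _ < 1 := by rw [mul_one]; exact hlt
  exact absurd h2 (not_le.2 this)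

/-! ### separatedness -/

/-- `⋂ₙ (ϖ, X, Y)ⁿ = 0` -/
theorem eq_zero_of_forall_mem_pow (hπ : π ≠ 0) (hπ1 : ‖π‖ < 1) (ϖ : K) (hϖ : ‖ϖ‖ < 1)
    {g : NodeInt π} (hg : ∀ n, g ∈ mIdeal hπ hπ1 ϖ hϖ.le ^ n) : g = 0 := by
  refine ext_cx hπ fun k => ?_
  rw [cx_zero, ← norm_eq_zero]
  refine le_antisymm ?_ (norm_nonneg _)
  have h := tendsto_theta_pow hπ1 hϖ 0 k
  refine ge_of_tendsto' h fun m => ?_
  rw [zero_add]
  exact norm_cx_le_of_mem_pow hπ hπ1 ϖ hϖ.le (hg m) k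

/-! ### units -/

/-- `1 + t` is a unit for `t ∈ (X, Y)` (geometric series, `(X, Y)`-adic completeness) -/
theorem isUnit_one_add_of_mem (hπ : π ≠ 0) (hπ1 : ‖π‖ < 1) {t : NodeInt π}
    (ht : t ∈ (Ideal.span {XInt hπ hπ1.le, YInt hπ hπ1.le} : Ideal (NodeInt π))) :
    IsUnit (1 + t) := by
  have h0 : ‖(0 : K)‖ < 1 := by rw [norm_zero]; exact one_pos
  have hI : (Ideal.span {XInt hπ hπ1.le, YInt hπ hπ1.le} : Ideal (NodeInt π))
      ≤ mIdeal hπ hπ1 0 h0.le :=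
    Ideal.span_mono (Set.subset_insert _ _)
  have ht' : t ∈ mIdeal hπ hπ1 0 h0.le := hI ht
  have hpow : ∀ n : ℕ, (-t) ^ n ∈ mIdeal hπ hπ1 0 h0.le ^ n := fun n =>
    Ideal.pow_mem_pow (neg_mem ht') n
  obtain ⟨L, hL⟩ := complete hπ hπ1 0 h0 (fun n => ∑ j ∈ Finset.range n, (-t) ^ j) (fun n => by
    rw [Finset.sum_range_succ, add_sub_cancel_left]
    exact hpow n)
  refine IsUnit.of_mul_eq_one L ?_
  have key : ∀ n : ℕ, (1 + t) * L - 1 ∈ mIdeal hπ hπ1 0 h0.le ^ n := fun n => by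
    have e : (1 + t) * L - 1 = (1 + t) * (L - ∑ j ∈ Finset.range n, (-t) ^ j) - (-t) ^ n := by
      have hg : (1 + t) * ∑ j ∈ Finset.range n, (-t) ^ j = 1 - (-t) ^ n := by
        have := mul_neg_geom_sum (-t) n
        rw [sub_neg_eq_add] at this
        exact this
      rw [mul_sub, hg]
      ring
    rw [e]
    exact sub_mem (Ideal.mul_mem_left _ _ (hL n)) (hpow n)
  have := eq_zero_of_forall_mem_pow hπ hπ1 0 h0 key
  exact sub_eq_zero.1 this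

/-- `g` is a unit iff its constant term has norm one -/
theorem isUnit_iff_norm_cx_zero (hπ : π ≠ 0) (hπ1 : ‖π‖ < 1) {g : NodeInt π} :
    IsUnit g ↔ ‖cx 0 g‖ = 1 := by
  refine ⟨norm_cx_zero_of_isUnit hπ hπ1, fun h => ?_⟩
  have ha0 : cx 0 g ≠ 0 := by
    intro h0; rw [h0, norm_zero] at h; exact zero_ne_one h
  have hinv : ‖(cx 0 g)⁻¹‖ ≤ 1 := by rw [norm_inv, h, inv_one]
  -- `g = g₀ (1 + t)`
  set t : NodeInt π := cInt (cx 0 g)⁻¹ hinv * (g - cInt (cx 0 g) (norm_cx_le_one 0 g)) with ht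
  have htm : t ∈ (Ideal.span {XInt hπ hπ1.le, YInt hπ hπ1.le} : Ideal (NodeInt π)) :=
    Ideal.mul_mem_left _ _ (sub_cInt_cx_zero_mem hπ hπ1 g)
  have hc : cInt (cx 0 g) (norm_cx_le_one 0 g) * cInt (cx 0 g)⁻¹ hinv = (1 : NodeInt π) :=
    Subtype.ext (by
      show algebraMap K (NodeB π) (cx 0 g) * algebraMap K (NodeB π) (cx 0 g)⁻¹ = 1
      rw [← map_mul, mul_inv_cancel₀ ha0, map_one])
  have hg : g = cInt (cx 0 g) (norm_cx_le_one 0 g) * (1 + t) := by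
    rw [ht, mul_add, mul_one, ← mul_assoc, hc, one_mul]
    ring
  rw [hg]
  exact (IsUnit.of_mul_eq_one _ hc).mul (isUnit_one_add_of_mem hπ hπ1 htm)

/-- **(LOC)** the integral node ring is local -/
theorem isLocalRing (hπ : π ≠ 0) (hπ1 : ‖π‖ < 1) : IsLocalRing (NodeInt π) := by
  have : Nontrivial (NodeInt π) := ⟨⟨0, 1, fun h => by
    have := congrArg (cx 0) h
    rw [cx_zero, cx_one, if_pos rfl] at this
    exact zero_ne_one this⟩⟩
  refine IsLocalRing.of_nonunits_add fun a b ha hb => ?_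
  rw [mem_nonunits_iff, isUnit_iff_norm_cx_zero hπ hπ1] at ha hb ⊢
  have ha' : ‖cx 0 a‖ < 1 := lt_of_le_of_ne (norm_cx_le_one 0 a) ha
  have hb' : ‖cx 0 b‖ < 1 := lt_of_le_of_ne (norm_cx_le_one 0 b) hb
  rw [cx_add]
  exact ((IsUltrametricDist.norm_add_le_max _ _).trans_lt (max_lt ha' hb')).ne

theorem mem_maximalIdeal_iff (hπ : π ≠ 0) (hπ1 : ‖π‖ < 1) {g : NodeInt π} :
    letI := isLocalRing hπ hπ1
    g ∈ IsLocalRing.maximalIdeal (NodeInt π) ↔ ‖cx 0 g‖ < 1 := by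
  have := isLocalRing hπ hπ1
  rw [IsLocalRing.mem_maximalIdeal, mem_nonunits_iff, isUnit_iff_norm_cx_zero hπ hπ1]
  exact ⟨fun h => lt_of_le_of_ne (norm_cx_le_one 0 g) h, fun h => h.ne⟩

/-- **(LOC)** in the discrete case the maximal ideal is `(ϖ, X, Y)` -/
theorem maximalIdeal_eq_span {ϖ : K} (hϖ : IsDiscreteNorm ϖ) (hπ : π ≠ 0) (hπ1 : ‖π‖ < 1) :
    have := isLocalRing hπ hπ1
    IsLocalRing.maximalIdeal (NodeInt π) = mIdeal hπ hπ1 ϖ hϖ.2.1.le := by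
  have := isLocalRing hπ hπ1
  have hϖ0 : ϖ ≠ 0 := norm_pos_iff.1 hϖ.1
  have hgen : ∀ x ∈ ({cInt ϖ hϖ.2.1.le, XInt hπ hπ1.le, YInt hπ hπ1.le} : Set (NodeInt π)),
      x ∈ mIdeal hπ hπ1 ϖ hϖ.2.1.le := fun x hx => Ideal.subset_span hx
  have hX : XInt hπ hπ1.le ∈ mIdeal hπ hπ1 ϖ hϖ.2.1.le :=
    hgen _ (Set.mem_insert_of_mem _ (Set.mem_insert _ _))
  have hY : YInt hπ hπ1.le ∈ mIdeal hπ hπ1 ϖ hϖ.2.1.le :=
    hgen _ (Set.mem_insert_of_mem _ (Set.mem_insert_of_mem _ rfl))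
  have hW : cInt ϖ hϖ.2.1.le ∈ mIdeal hπ hπ1 ϖ hϖ.2.1.le := hgen _ (Set.mem_insert _ _)
  refine le_antisymm (fun g hg => ?_) ?_
  · rw [mem_maximalIdeal_iff hπ hπ1] at hg
    have hb : ‖ϖ⁻¹ * cx 0 g‖ ≤ 1 := by
      rw [norm_mul, norm_inv, inv_mul_le_iff₀ hϖ.1, mul_one]
      exact norm_le_unif_of_lt_one hϖ hg
    have e : cInt (cx 0 g) (norm_cx_le_one 0 g)
        = cInt ϖ hϖ.2.1.le * cInt (ϖ⁻¹ * cx 0 g) hb :=
      Subtype.ext (by
        rw [Subring.coe_mul, coe_cInt, coe_cInt, coe_cInt, ← map_mul (algebraMap K (NodeB π)),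
          mul_inv_cancel_left₀ hϖ0])
    rw [eq_cInt_add hπ hπ1 g, e]
    exact add_mem (add_mem (Ideal.mul_mem_right _ _ hW) (Ideal.mul_mem_right _ _ hX))
      (Ideal.mul_mem_right _ _ hY)
  · refine Ideal.span_le.2 ?_
    rintro x (rfl | rfl | rfl)
    · show cInt ϖ hϖ.2.1.le ∈ IsLocalRing.maximalIdeal (NodeInt π)
      rw [mem_maximalIdeal_iff hπ hπ1, cx_cInt, if_pos rfl]
      exact hϖ.2.1
    · show XInt hπ hπ1.le ∈ IsLocalRing.maximalIdeal (NodeInt π)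
      rw [mem_maximalIdeal_iff hπ hπ1]
      have := cx_XInt_mul hπ hπ1.le 0 (1 : NodeInt π)
      rw [mul_one, cx_one, if_neg (by omega)] at this
      rw [this, norm_zero]
      exact one_pos
    · show YInt hπ hπ1.le ∈ IsLocalRing.maximalIdeal (NodeInt π)
      rw [mem_maximalIdeal_iff hπ hπ1]
      have := cx_YInt_mul hπ hπ1.le 0 (1 : NodeInt π)
      rw [mul_one, cx_one, if_neg (by omega), mul_zero] at this
      rw [this, norm_zero]
      exact one_pos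

/-! ### the clause `unit` of `B4.SideHyp` -/

/-- for a unit `u`, `u - X g` is not in the vertical prime `(ϖ, Y)` -/
theorem sub_XInt_mul_notMem_idealX (hπ : π ≠ 0) (hπ1 : ‖π‖ < 1) {u : NodeInt π} (hu : IsUnit u)
    (g : NodeInt π) : u - XInt hπ hπ1.le * g ∉ idealX π := by
  rw [mem_idealX, not_lt]
  have h1 : ‖cx 0 u‖ = 1 := norm_cx_zero_of_isUnit hπ hπ1 hu
  have h2 : ‖cx 0 (XInt hπ hπ1.le * g)‖ < 1 := by
    rw [cx_XInt_mul]
    exact (norm_cx_le_of_neg hπ hπ1.le (by omega) g).trans_lt hπ1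
  have h3 : ‖cx 0 (u - XInt hπ hπ1.le * g)‖ = 1 := by
    rw [cx_sub]
    refine le_antisymm ?_ ?_
    · exact (BAmice.norm_sub_le_max' _ _).trans (max_le h1.le h2.le)
    · by_contra hlt
      rw [not_le] at hlt
      have : ‖cx 0 u‖ ≤ max ‖cx 0 u - cx 0 (XInt hπ hπ1.le * g)‖ ‖cx 0 (XInt hπ hπ1.le * g)‖ := by
        have := IsUltrametricDist.norm_add_le_max (cx 0 u - cx 0 (XInt hπ hπ1.le * g))
          (cx 0 (XInt hπ hπ1.le * g))
        rwa [sub_add_cancel] at this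
      rw [h1] at this
      exact absurd this (not_le.2 (max_lt hlt h2))
  calc (1 : ℝ) = ‖cx 0 (u - XInt hπ hπ1.le * g)‖ := h3.symm
    _ ≤ _ := BAmice.norm_coeff_le 0 _

/-- for a unit `u`, `u - Y g` is not in the vertical prime `(ϖ, X)` -/
theorem sub_YInt_mul_notMem_idealY (hπ : π ≠ 0) (hπ1 : ‖π‖ < 1) {u : NodeInt π} (hu : IsUnit u)
    (g : NodeInt π) : u - YInt hπ hπ1.le * g ∉ idealY π := by
  show swapInt π (u - YInt hπ hπ1.le * g) ∉ idealX π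
  rw [map_sub, map_mul, swapInt_YInt]
  exact sub_XInt_mul_notMem_idealX hπ hπ1 (hu.map (swapInt π)) _

theorem sub_XInt_mul_notMem_span {ϖ : K} (hϖ : IsDiscreteNorm ϖ) (hπ : π ≠ 0) (hπ1 : ‖π‖ < 1)
    {u : NodeInt π} (hu : IsUnit u) (g : NodeInt π) :
    u - XInt hπ hπ1.le * g ∉
      (Ideal.span {cInt ϖ hϖ.2.1.le, YInt hπ hπ1.le} : Ideal (NodeInt π)) := by
  rw [span_unif_Y_eq hϖ hπ hπ1]
  exact sub_XInt_mul_notMem_idealX hπ hπ1 hu g

theorem sub_YInt_mul_notMem_span {ϖ : K} (hϖ : IsDiscreteNorm ϖ) (hπ : π ≠ 0) (hπ1 : ‖π‖ < 1)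
    {u : NodeInt π} (hu : IsUnit u) (g : NodeInt π) :
    u - YInt hπ hπ1.le * g ∉
      (Ideal.span {cInt ϖ hϖ.2.1.le, XInt hπ hπ1.le} : Ideal (NodeInt π)) := by
  rw [span_unif_X_eq hϖ hπ hπ1]
  exact sub_YInt_mul_notMem_idealY hπ hπ1 hu g

end Fermat.Agent.FF3.NodeRing

end
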