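import Mathlib
import Fermat.Agent.FF3.NodeRing.Loc

/-!
# FF3 / NodeRing : the boundary maps into the INTEGRAL Amice ring and the clause `am`

`B4.SideHyp.am` (helper22) reads `∀ g : B, (∃ z : E, toE g = b ϖ * z) → g ∈ J`; it is FALSE for
`E := BAmice K` (where `ϖ` is a unit) and true for `E :=` the closed unit ball of `BAmice K`
(the integral Amice ring, `AmiceU.ball (BAmice K)`).  This file provides the maps into that ball.

* `toXBall π toYBall π : NodeInt π →+* ↥(ball (BAmice K))`, `cBall a ha : ↥(ball (BAmice K))`;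
* `am_X`, `am_Y` : the clause `am` for `J = (ϖ, Y)` resp. `(ϖ, X)` (discrete case), with converses.
-/

set_option autoImplicit false
set_option linter.unusedSectionVars false

noncomputable section

namespace Fermat.Agent.FF3.NodeRing

open Fermat.Agent.FF3.Amice Fermat.Agent.FF3.AmiceU

variable {K : Type*} [NormedField K] [IsUltrametricDist K] [CompleteSpace K] {π : K}

/-- the `X`-expansion, into the integral Amice ring -/
def toXBall (π : K) : NodeInt π →+* ↥(ball (BAmice K)) :=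
  (toXInt π).codRestrict (ball (BAmice K)) fun g => norm_toX_le_one g

/-- the `Y`-expansion, into the integral Amice ring -/
def toYBall (π : K) : NodeInt π →+* ↥(ball (BAmice K)) :=
  (toXBall π).comp (swapInt π : NodeInt π →+* NodeInt π)

@[simp] theorem coe_toXBall (g : NodeInt π) :
    ((toXBall π g : ↥(ball (BAmice K))) : BAmice K) = toX (g : NodeB π) := rfl

@[simp] theorem coe_toYBall (g : NodeInt π) :
    ((toYBall π g : ↥(ball (BAmice K))) : BAmice K) = toY (g : NodeB π) := rfl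

/-- the constants of the integral Amice ring -/
def cBall (a : K) (ha : ‖a‖ ≤ 1) : ↥(ball (BAmice K)) :=
  ⟨algebraMap K (BAmice K) a, by rw [mem_ball, norm_algebraMap']; exact ha⟩

@[simp] theorem coe_cBall (a : K) (ha : ‖a‖ ≤ 1) :
    ((cBall a ha : ↥(ball (BAmice K))) : BAmice K) = algebraMap K (BAmice K) a := rfl

theorem toXBall_cInt (a : K) (ha : ‖a‖ ≤ 1) : toXBall π (cInt a ha) = cBall a ha :=
  Subtype.ext (by rw [coe_toXBall, coe_cInt, AlgHom.commutes, coe_cBall])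

theorem toYBall_cInt (a : K) (ha : ‖a‖ ≤ 1) : toYBall π (cInt a ha) = cBall a ha :=
  Subtype.ext (by rw [coe_toYBall, coe_cInt, AlgHom.commutes, coe_cBall])

theorem toXBall_injective (hπ : π ≠ 0) : Function.Injective (toXBall π) := fun _ _ e =>
  toXInt_injective hπ (congrArg Subtype.val e)

theorem toYBall_injective (hπ : π ≠ 0) : Function.Injective (toYBall π) := fun _ _ e =>
  Subtype.ext (toY_injective hπ (congrArg Subtype.val e))

/-- **the clause `am`**, `X`-side: divisibility by `ϖ` in the integral Amice ring -/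
theorem am_X {ϖ : K} (hϖ : IsDiscreteNorm ϖ) (hπ : π ≠ 0) (hπ1 : ‖π‖ < 1) {g : NodeInt π} :
    (∃ z : ↥(ball (BAmice K)), toXBall π g = cBall ϖ hϖ.2.1.le * z) ↔
      g ∈ (Ideal.span {cInt ϖ hϖ.2.1.le, YInt hπ hπ1.le} : Ideal (NodeInt π)) := by
  rw [mem_span_unif_Y_iff hϖ hπ hπ1]
  have hϖ0 : ϖ ≠ 0 := norm_pos_iff.1 hϖ.1
  constructor
  · rintro ⟨z, hz⟩
    have h := congrArg Subtype.val hz
    rw [coe_toXBall] at h
    rw [h]
    show ‖algebraMap K (BAmice K) ϖ * (z : BAmice K)‖ ≤ ‖ϖ‖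
    calc ‖algebraMap K (BAmice K) ϖ * (z : BAmice K)‖
        ≤ ‖algebraMap K (BAmice K) ϖ‖ * ‖(z : BAmice K)‖ := norm_mul_le _ _
      _ ≤ ‖ϖ‖ * 1 := by
          rw [norm_algebraMap']
          exact mul_le_mul_of_nonneg_left z.2 (norm_nonneg _)
      _ = ‖ϖ‖ := mul_one _
  · intro h
    have hz : ‖ϖ⁻¹ • toX (g : NodeB π)‖ ≤ 1 := by
      rw [norm_smul, norm_inv, inv_mul_le_iff₀ hϖ.1, mul_one]
      exact h
    refine ⟨⟨ϖ⁻¹ • toX (g : NodeB π), hz⟩, Subtype.ext ?_⟩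
    show toX (g : NodeB π) = algebraMap K (BAmice K) ϖ * (ϖ⁻¹ • toX (g : NodeB π))
    rw [← Algebra.smul_def, smul_smul, mul_inv_cancel₀ hϖ0, one_smul]

/-- **the clause `am`**, `Y`-side -/
theorem am_Y {ϖ : K} (hϖ : IsDiscreteNorm ϖ) (hπ : π ≠ 0) (hπ1 : ‖π‖ < 1) {g : NodeInt π} :
    (∃ z : ↥(ball (BAmice K)), toYBall π g = cBall ϖ hϖ.2.1.le * z) ↔
      g ∈ (Ideal.span {cInt ϖ hϖ.2.1.le, XInt hπ hπ1.le} : Ideal (NodeInt π)) := by
  rw [mem_span_unif_X_iff hϖ hπ hπ1]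
  have hϖ0 : ϖ ≠ 0 := norm_pos_iff.1 hϖ.1
  constructor
  · rintro ⟨z, hz⟩
    have h := congrArg Subtype.val hz
    rw [coe_toYBall] at h
    rw [h]
    show ‖algebraMap K (BAmice K) ϖ * (z : BAmice K)‖ ≤ ‖ϖ‖
    calc ‖algebraMap K (BAmice K) ϖ * (z : BAmice K)‖
        ≤ ‖algebraMap K (BAmice K) ϖ‖ * ‖(z : BAmice K)‖ := norm_mul_le _ _
      _ ≤ ‖ϖ‖ * 1 := by
          rw [norm_algebraMap']
          exact mul_le_mul_of_nonneg_left z.2 (norm_nonneg _)
      _ = ‖ϖ‖ := mul_one _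
  · intro h
    have hz : ‖ϖ⁻¹ • toY (g : NodeB π)‖ ≤ 1 := by
      rw [norm_smul, norm_inv, inv_mul_le_iff₀ hϖ.1, mul_one]
      exact h
    refine ⟨⟨ϖ⁻¹ • toY (g : NodeB π), hz⟩, Subtype.ext ?_⟩
    show toY (g : NodeB π) = algebraMap K (BAmice K) ϖ * (ϖ⁻¹ • toY (g : NodeB π))
    rw [← Algebra.smul_def, smul_smul, mul_inv_cancel₀ hϖ0, one_smul]

end Fermat.Agent.FF3.NodeRing

end
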