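import Mathlib
import Fermat.Agent.FF3.AmiceU.PS
import Fermat.Agent.FF3.NodeRing.Side

/-!
# FF3 / NodeRing : the closed unit ball of a complete ultrametric normed algebra is `ϖ`-adically
complete

`K` a normed field, `A` a complete ultrametric normed commutative `K`-algebra with `‖1‖ = 1`,
`ϖ : K`, `0 < ‖ϖ‖ < 1`.  Then `AmiceU.ball A` (helper11's closed unit ball) is adically complete for
the principal ideal generated by `ϖ` (`isAdicComplete_ball`, Mathlib's `IsAdicComplete`), and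
`x ∈ (ϖ) ^ n ↔ ‖x‖ ≤ ‖ϖ‖ ^ n` (`mem_span_pow_iff`).  No discreteness.

Instances: `A = BAmice K` (the integral Amice ring), `A = NodeB π` (the integral node ring).
-/

set_option autoImplicit false
set_option linter.unusedSectionVars false

noncomputable section

namespace Fermat.Agent.FF3.NodeRing

open Filter Topology
open Fermat.Agent.FF3.AmiceU

variable {K A : Type*} [NormedField K] [NormedCommRing A] [NormedAlgebra K A]
  [IsUltrametricDist A] [NormOneClass A]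

/-- the constants of the unit ball -/
def ballConst (a : K) (ha : ‖a‖ ≤ 1) : ↥(ball A) :=
  ⟨algebraMap K A a, by rw [mem_ball, norm_algebraMap']; exact ha⟩

@[simp] theorem coe_ballConst (a : K) (ha : ‖a‖ ≤ 1) :
    ((ballConst a ha : ↥(ball A)) : A) = algebraMap K A a := rfl

theorem coe_ballConst_pow (a : K) (ha : ‖a‖ ≤ 1) (n : ℕ) :
    (((ballConst a ha : ↥(ball A)) ^ n : ↥(ball A)) : A) = algebraMap K A (a ^ n) := by
  rw [SubmonoidClass.coe_pow, coe_ballConst, map_pow]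

/-- membership in the powers of the ideal `(ϖ)` of the unit ball is a norm condition -/
theorem mem_span_pow_iff {ϖ : K} (h0 : ϖ ≠ 0) (h1 : ‖ϖ‖ ≤ 1) (n : ℕ) {x : ↥(ball A)} :
    x ∈ (Ideal.span {(ballConst ϖ h1 : ↥(ball A))}) ^ n ↔ ‖(x : A)‖ ≤ ‖ϖ‖ ^ n := by
  rw [Ideal.span_singleton_pow, Ideal.mem_span_singleton]
  have hpos : 0 < ‖ϖ‖ ^ n := pow_pos (norm_pos_iff.2 h0) n
  constructor
  · rintro ⟨z, rfl⟩
    rw [Subring.coe_mul, coe_ballConst_pow]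
    calc ‖algebraMap K A (ϖ ^ n) * (z : A)‖ ≤ ‖algebraMap K A (ϖ ^ n)‖ * ‖(z : A)‖ :=
          norm_mul_le _ _
      _ ≤ ‖ϖ‖ ^ n * 1 := by
          rw [norm_algebraMap', norm_pow]
          exact mul_le_mul_of_nonneg_left z.2 hpos.le
      _ = ‖ϖ‖ ^ n := mul_one _
  · intro hx
    have hz : ‖(ϖ ^ n)⁻¹ • (x : A)‖ ≤ 1 := by
      rw [norm_smul, norm_inv, norm_pow, inv_mul_le_iff₀ hpos, mul_one]
      exact hx
    refine ⟨⟨(ϖ ^ n)⁻¹ • (x : A), hz⟩, Subtype.ext ?_⟩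
    rw [Subring.coe_mul, coe_ballConst_pow]
    show (x : A) = algebraMap K A (ϖ ^ n) * ((ϖ ^ n)⁻¹ • (x : A))
    rw [← Algebra.smul_def, smul_smul, mul_inv_cancel₀ (pow_ne_zero n h0), one_smul]

theorem mem_span_iff {ϖ : K} (h0 : ϖ ≠ 0) (h1 : ‖ϖ‖ ≤ 1) {x : ↥(ball A)} :
    x ∈ Ideal.span {(ballConst ϖ h1 : ↥(ball A))} ↔ ‖(x : A)‖ ≤ ‖ϖ‖ := by
  have := mem_span_pow_iff (A := A) h0 h1 1 (x := x)
  rwa [pow_one, pow_one] at this

theorem smodEq_iff {ϖ : K} (h0 : ϖ ≠ 0) (h1 : ‖ϖ‖ ≤ 1) (n : ℕ) {x y : ↥(ball A)} :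
    x ≡ y [SMOD ((Ideal.span {(ballConst ϖ h1 : ↥(ball A))}) ^ n • ⊤ : Submodule ↥(ball A) ↥(ball A))]
      ↔ ‖(x : A) - (y : A)‖ ≤ ‖ϖ‖ ^ n := by
  rw [SModEq.sub_mem, smul_eq_mul, Ideal.mul_top, mem_span_pow_iff h0 h1]
  rfl

/-- **the unit ball is `ϖ`-adically complete** -/
theorem isAdicComplete_ball [CompleteSpace A] (ϖ : K) (h0 : ϖ ≠ 0) (h1 : ‖ϖ‖ < 1) :
    IsAdicComplete (Ideal.span {(ballConst ϖ h1.le : ↥(ball A))}) ↥(ball A) := by
  have hlim : Tendsto (fun n : ℕ => ‖ϖ‖ ^ n) atTop (𝓝 0) :=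
    tendsto_pow_atTop_nhds_zero_of_lt_one (norm_nonneg _) h1
  have : IsHausdorff (Ideal.span {(ballConst ϖ h1.le : ↥(ball A))}) ↥(ball A) :=
    ⟨fun x hx => by
      have h : ∀ n : ℕ, ‖(x : A)‖ ≤ ‖ϖ‖ ^ n := fun n => by
        have := (smodEq_iff h0 h1.le n).1 (hx n)
        rwa [Subring.coe_zero, sub_zero] at this
      have hx0 : ‖(x : A)‖ ≤ 0 := ge_of_tendsto' hlim h
      exact Subtype.ext (norm_le_zero_iff.1 hx0)⟩
  have : IsPrecomplete (Ideal.span {(ballConst ϖ h1.le : ↥(ball A))}) ↥(ball A) :=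
    ⟨fun f hf => by
      have hf' : ∀ {m n : ℕ}, m ≤ n → ‖(f m : A) - (f n : A)‖ ≤ ‖ϖ‖ ^ m := fun {m n} hmn =>
        (smodEq_iff h0 h1.le m).1 (hf hmn)
      have hc : CauchySeq fun n => (f n : A) :=
        cauchySeq_of_le_geometric ‖ϖ‖ 1 h1 fun n => by
          rw [one_mul, dist_eq_norm]
          exact hf' (Nat.le_succ n)
      obtain ⟨L, hL⟩ := cauchySeq_tendsto_of_complete hc
      have hL1 : ‖L‖ ≤ 1 :=
        le_of_tendsto' ((continuous_norm.tendsto _).comp hL) fun n => (f n).2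
      refine ⟨⟨L, hL1⟩, fun n => (smodEq_iff h0 h1.le n).2 ?_⟩
      show ‖(f n : A) - L‖ ≤ ‖ϖ‖ ^ n
      have ht : Tendsto (fun m => ‖(f n : A) - (f m : A)‖) atTop (𝓝 ‖(f n : A) - L‖) :=
        (continuous_norm.tendsto _).comp (tendsto_const_nhds.sub hL)
      refine le_of_tendsto ht ?_
      filter_upwards [eventually_ge_atTop n] with m hm
      exact hf' hm⟩
  exact { }

/-- the same for an arbitrary generator `w` with `↑w = ϖ` -/
theorem isAdicComplete_ball_of_eq [CompleteSpace A] {ϖ : K} (h0 : ϖ ≠ 0) (h1 : ‖ϖ‖ < 1)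
    (w : ↥(ball A)) (hw : (w : A) = algebraMap K A ϖ) :
    IsAdicComplete (Ideal.span {w}) ↥(ball A) := by
  have e : w = ballConst ϖ h1.le := Subtype.ext hw
  rw [e]
  exact isAdicComplete_ball ϖ h0 h1

theorem mem_span_pow_iff_of_eq {ϖ : K} (h0 : ϖ ≠ 0) (h1 : ‖ϖ‖ ≤ 1) (w : ↥(ball A))
    (hw : (w : A) = algebraMap K A ϖ) (n : ℕ) {x : ↥(ball A)} :
    x ∈ (Ideal.span {w}) ^ n ↔ ‖(x : A)‖ ≤ ‖ϖ‖ ^ n := by
  have e : w = ballConst ϖ h1 := Subtype.ext hw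
  rw [e]
  exact mem_span_pow_iff h0 h1 n

/-- the elementary Cauchy form of the completeness of the ball -/
theorem exists_limit_ball [CompleteSpace A] {ϖ : K} (h0 : ϖ ≠ 0) (h1 : ‖ϖ‖ < 1)
    (w : ↥(ball A)) (hw : (w : A) = algebraMap K A ϖ) (f : ℕ → ↥(ball A))
    (hf : ∀ n, f (n + 1) - f n ∈ (Ideal.span {w}) ^ n) :
    ∃ L : ↥(ball A), ∀ n, L - f n ∈ (Ideal.span {w}) ^ n := by
  have hf' : ∀ n, ‖(f (n + 1) : A) - (f n : A)‖ ≤ ‖ϖ‖ ^ n := fun n =>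
    (mem_span_pow_iff_of_eq h0 h1.le w hw n).1 (hf n)
  have hc : CauchySeq fun n => (f n : A) :=
    cauchySeq_of_le_geometric ‖ϖ‖ 1 h1 fun n => by
      rw [one_mul, dist_eq_norm, ← norm_neg, neg_sub]
      exact hf' n
  obtain ⟨L, hL⟩ := cauchySeq_tendsto_of_complete hc
  have hL1 : ‖L‖ ≤ 1 :=
    le_of_tendsto' ((continuous_norm.tendsto _).comp hL) fun n => (f n).2
  have hmn : ∀ n m, n ≤ m → ‖(f m : A) - (f n : A)‖ ≤ ‖ϖ‖ ^ n := by
    intro n m hnm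
    induction m, hnm using Nat.le_induction with
    | base => rw [sub_self, norm_zero]; exact pow_nonneg (norm_nonneg _) _
    | succ m hm ih =>
      have e : (f (m + 1) : A) - (f n : A) = ((f (m + 1) : A) - (f m : A)) + ((f m : A) - (f n : A)) :=
        by ring
      rw [e]
      refine (IsUltrametricDist.norm_add_le_max _ _).trans (max_le ((hf' m).trans ?_) ih)
      exact pow_le_pow_of_le_one (norm_nonneg _) h1.le hm
  refine ⟨⟨L, hL1⟩, fun n => (mem_span_pow_iff_of_eq h0 h1.le w hw n).2 ?_⟩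
  show ‖L - (f n : A)‖ ≤ ‖ϖ‖ ^ n
  have ht : Tendsto (fun m => ‖(f m : A) - (f n : A)‖) atTop (𝓝 ‖L - (f n : A)‖) :=
    (continuous_norm.tendsto _).comp (hL.sub tendsto_const_nhds)
  refine le_of_tendsto ht ?_
  filter_upwards [eventually_ge_atTop n] with m hm
  exact hmn n m hm

/-! ### the integral Amice ring -/

section Amice

open Fermat.Agent.FF3.Amice

variable {K : Type*} [NormedField K] [IsUltrametricDist K] [CompleteSpace K]

theorem cBall_eq_ballConst (a : K) (ha : ‖a‖ ≤ 1) :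
    (cBall a ha : ↥(ball (BAmice K))) = ballConst a ha := rfl

/-- the integral Amice ring is `ϖ`-adically complete -/
theorem isAdicComplete_ballAmice (ϖ : K) (h0 : ϖ ≠ 0) (h1 : ‖ϖ‖ < 1) :
    IsAdicComplete (Ideal.span {(cBall ϖ h1.le : ↥(ball (BAmice K)))}) ↥(ball (BAmice K)) :=
  isAdicComplete_ball ϖ h0 h1

theorem mem_span_cBall_pow_iff {ϖ : K} (h0 : ϖ ≠ 0) (h1 : ‖ϖ‖ ≤ 1) (n : ℕ)
    {x : ↥(ball (BAmice K))} :
    x ∈ (Ideal.span {(cBall ϖ h1 : ↥(ball (BAmice K)))}) ^ n ↔ ‖(x : BAmice K)‖ ≤ ‖ϖ‖ ^ n :=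
  mem_span_pow_iff h0 h1 n

end Amice

end Fermat.Agent.FF3.NodeRing

end
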